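import Fermat.Agent.H25.CFT.SecondInequalityFinal
import Fermat.Agent.H88.Cft.LocNormIndex

/-!
# P-CFT (helper25): the second inequality, unconditional

`[Kˣ : O_T^× · NT(L,T)] ∣ p` for every cyclic setting `L/K` of odd prime degree `p` with
`ζ_p ∈ K` and `Cl_T(L) = 0`.  Together with the first inequality (helper43) the norm index is
exactly `p`.
-/

namespace Fermat.Agent.H25.CFT

open Fermat.Agent.H43.Cft

universe u v

/-- **The first inequality**, unconditional (helper43 + helper88). -/
theorem firstInequalityUncond : FirstInequalityStatement.{u, v} :=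
  firstInequality_of_localGe Fermat.Agent.H88.Cft.localNormIndexGe

/-- **The second inequality**, unconditional. -/
theorem secondInequalityUncond : SecondInequalityStatement.{u, v} :=
  secondInequality_of_localGe Fermat.Agent.H88.Cft.localNormIndexGe

/-- **The global norm index theorem**: `[Kˣ : O_T^× · NT(L,T)] = p`. -/
theorem normIdx_eq (K : Type u) [Field K] [NumberField K] (L : Type v) [Field L]
    [NumberField L] [Algebra K L] (p : ℕ)
    (T : Finset (IsDedekindDomain.HeightOneSpectrum (NumberField.RingOfIntegers K)))
    (hset : CyclicSetting K L p T) (hζ : ∃ ζ : K, IsPrimitiveRoot ζ p)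
    (hcl : ClTrivial L (primesAbove K L T)) : normIdx K L T = p :=
  Nat.dvd_antisymm (secondInequalityUncond K L p T hset hζ hcl)
    (firstInequalityUncond K L p T hset).2

end Fermat.Agent.H25.CFT
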