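import Fermat.Agent.H25.CFT.KummerSingle
import Fermat.Agent.H43.Cft.GlobalDefs

/-!
# P-CFT (helper25): Kummer towers

`K` a number field containing a primitive `p`-th root of unity, `D ⊆ Kˣ` finite, `b ∈ Kˣ` not in
`⟨D⟩ · (Kˣ)^p`.  Then there is a number field `F ⊇ K` in which every element of `D` is a `p`-th
power and `b` is not a `p`-th power.
-/

set_option autoImplicit false
set_option linter.style.haveILetI false

open Polynomial
open scoped KummerExtension

namespace Fermat.Agent.H25.CFT

open Fermat.Agent.H43.Cft (powSubgroup)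

universe u

theorem mem_powSubgroup_iff {K : Type*} [Field K] [NumberField K] {p : ℕ} {x : Kˣ} :
    x ∈ powSubgroup K p ↔ ∃ y : Kˣ, y ^ p = x := by
  simp [powSubgroup, MonoidHom.mem_range]

/-- a unit is a `p`-th power of a unit iff its value is a `p`-th power in the field. -/
theorem mem_powSubgroup_iff_val {K : Type*} [Field K] [NumberField K] {p : ℕ} (hp : p ≠ 0)
    {x : Kˣ} :
    x ∈ powSubgroup K p ↔ ∃ y : K, y ^ p = (x : K) := by
  rw [mem_powSubgroup_iff]
  constructor
  · rintro ⟨y, rfl⟩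
    exact ⟨(y : K), by simp⟩
  · rintro ⟨y, hy⟩
    have hy0 : y ≠ 0 := by
      rintro rfl
      rw [zero_pow hp] at hy
      exact x.ne_zero hy.symm
    exact ⟨Units.mk0 y hy0, Units.ext (by simpa using hy)⟩

/-- **Kummer tower.** -/
theorem exists_kummer_tower (p : ℕ) (hp : p.Prime) (n : ℕ) :
    ∀ (K : Type u) [Field K] [NumberField K] (ζ : K) (_ : IsPrimitiveRoot ζ p)
      (D : Finset Kˣ) (_ : D.card ≤ n) (b : Kˣ)
      (_ : b ∉ Subgroup.closure (D : Set Kˣ) ⊔ powSubgroup K p),
    ∃ (F : Type u) (_ : Field F) (_ : NumberField F) (ι : K →+* F),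
      (∀ d ∈ D, ∃ y : F, y ^ p = ι (d : K)) ∧ ¬ ∃ y : F, y ^ p = ι (b : K) := by
  classical
  induction n with
  | zero =>
    intro K _ _ ζ _ D hD b hb
    have hD' : D = ∅ := Finset.card_eq_zero.1 (Nat.le_zero.1 hD)
    subst hD'
    refine ⟨K, inferInstance, inferInstance, RingHom.id K, by simp, ?_⟩
    intro h
    apply hb
    exact Subgroup.mem_sup_right ((mem_powSubgroup_iff_val hp.ne_zero).2 h)
  | succ n ih =>
    intro K _ _ ζ hζ D hD b hb
    by_cases hDe : D = ∅
    · subst hDe
      refine ⟨K, inferInstance, inferInstance, RingHom.id K, by simp, ?_⟩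
      intro h
      apply hb
      exact Subgroup.mem_sup_right ((mem_powSubgroup_iff_val hp.ne_zero).2 h)
    obtain ⟨d, hdD⟩ := Finset.nonempty_iff_ne_empty.2 hDe
    have hcard : (D.erase d).card ≤ n := by
      rw [Finset.card_erase_of_mem hdD]
      omega
    have hsub : (D.erase d : Finset Kˣ) ⊆ D := Finset.erase_subset _ _
    by_cases hdp : ∃ y : K, y ^ p = (d : K)
    · -- `d` is already a `p`-th power
      have hb' : b ∉ Subgroup.closure ((D.erase d : Finset Kˣ) : Set Kˣ) ⊔ powSubgroup K p := by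
        intro h
        apply hb
        exact (sup_le_sup_right (Subgroup.closure_mono (by exact_mod_cast hsub)) _) h
      obtain ⟨F, iF, iN, ι, h1, h2⟩ := ih K ζ hζ (D.erase d) hcard b hb'
      refine ⟨F, iF, iN, ι, ?_, h2⟩
      intro d' hd'
      by_cases hdd : d' = d
      · subst hdd
        obtain ⟨y, hy⟩ := hdp
        exact ⟨ι y, by rw [← map_pow, hy]⟩
      · exact h1 d' (Finset.mem_erase.2 ⟨hdd, hd'⟩)
    · -- adjoin a `p`-th root of `d`
      have hd : ∀ y : K, y ^ p ≠ (d : K) := fun y hy => hdp ⟨y, hy⟩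
      have hirr : Irreducible (X ^ p - C (d : K)) := X_pow_sub_C_irreducible_of_prime hp hd
      haveI : Fact (Irreducible (X ^ p - C (d : K))) := ⟨hirr⟩
      haveI : Module.Finite K K[p√(d : K)] := (AdjoinRoot.powerBasis hirr.ne_zero).finite
      haveI : NumberField K[p√(d : K)] := NumberField.of_module_finite K _
      let ι₁ : K →+* K[p√(d : K)] := algebraMap K K[p√(d : K)]
      have hι₁ : Function.Injective ι₁ := (algebraMap K K[p√(d : K)]).injective
      let f : Kˣ →* (K[p√(d : K)])ˣ := Units.map (ι₁ : K →* K[p√(d : K)])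
      have hf : Function.Injective f := Units.map_injective hι₁
      have hfval : ∀ x : Kˣ, ((f x : (K[p√(d : K)])ˣ) : K[p√(d : K)]) = ι₁ (x : K) := fun x => rfl
      set D₁ : Finset (K[p√(d : K)])ˣ := (D.erase d).image f with hD₁
      have hcard₁ : D₁.card ≤ n := (Finset.card_image_le).trans hcard
      have hδp : (AdjoinRoot.root (X ^ p - C (d : K))) ^ p = ι₁ (d : K) := by
        show _ = algebraMap K K[p√(d : K)] (d : K)
        rw [AdjoinRoot.algebraMap_eq]
        exact root_X_pow_sub_C_pow p (d : K)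
      have hb₁ : f b ∉ Subgroup.closure (D₁ : Set (K[p√(d : K)])ˣ) ⊔
          powSubgroup K[p√(d : K)] p := by
        intro h
        rw [Subgroup.mem_sup] at h
        obtain ⟨x₁, hx₁, z, hz, hxz⟩ := h
        have hx₁' : x₁ ∈ (Subgroup.closure ((D.erase d : Finset Kˣ) : Set Kˣ)).map f := by
          rw [MonoidHom.map_closure]
          have : (f '' ((D.erase d : Finset Kˣ) : Set Kˣ)) = (D₁ : Set (K[p√(d : K)])ˣ) := by
            rw [hD₁, Finset.coe_image]
          rw [this]
          exact hx₁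
        obtain ⟨x, hx, rfl⟩ := Subgroup.mem_map.1 hx₁'
        obtain ⟨γ, rfl⟩ := mem_powSubgroup_iff.1 hz
        -- `γ ^ p = ι₁ (b / x)`
        have hγ : ((γ : (K[p√(d : K)])ˣ) : K[p√(d : K)]) ^ p =
            algebraMap K K[p√(d : K)] ((b * x⁻¹ : Kˣ) : K) := by
          have h1 : γ ^ p = f (b * x⁻¹) := by
            rw [map_mul, map_inv, ← hxz]
            simp [mul_comm]
          have h2 := congrArg (fun u : (K[p√(d : K)])ˣ => (u : K[p√(d : K)])) h1
          simp only [Units.val_pow_eq_pow_val] at h2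
          rw [h2, hfval]
        obtain ⟨j, e, hje⟩ := kummer_single hp hζ hd (b * x⁻¹ : Kˣ).ne_zero _ hγ
        have he0 : e ≠ 0 := by
          rintro rfl
          rw [zero_pow hp.ne_zero, mul_zero] at hje
          exact (b * x⁻¹ : Kˣ).ne_zero hje
        apply hb
        have hbx : b = (x * d ^ j) * (Units.mk0 e he0) ^ p := by
          apply Units.ext
          have hbx' : (b : K) = (x : K) * ((b * x⁻¹ : Kˣ) : K) := by
            rw [← Units.val_mul, mul_comm b, mul_inv_cancel_left]
          rw [hbx', hje]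
          simp only [Units.val_mul, Units.val_pow_eq_pow_val, Units.val_mk0]
          ring
        rw [hbx]
        refine Subgroup.mul_mem_sup ?_ (mem_powSubgroup_iff.2 ⟨_, rfl⟩)
        refine Subgroup.mul_mem _ ?_ (Subgroup.pow_mem _ (Subgroup.subset_closure hdD) j)
        exact Subgroup.closure_mono (by exact_mod_cast hsub) hx
      have hζ₁ : IsPrimitiveRoot (ι₁ ζ) p := hζ.map_of_injective hι₁
      obtain ⟨F, iF, iN, ι, h1, h2⟩ := ih K[p√(d : K)] (ι₁ ζ) hζ₁ D₁ hcard₁ (f b) hb₁
      refine ⟨F, iF, iN, ι.comp ι₁, ?_, ?_⟩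
      · intro d' hd'
        by_cases hdd : d' = d
        · subst hdd
          refine ⟨ι (AdjoinRoot.root (X ^ p - C (d' : K))), ?_⟩
          rw [← map_pow, hδp]
          rfl
        · have hmem : f d' ∈ D₁ := Finset.mem_image_of_mem f (Finset.mem_erase.2 ⟨hdd, hd'⟩)
          obtain ⟨y, hy⟩ := h1 (f d') hmem
          exact ⟨y, by rw [hy, hfval]; rfl⟩
      · rintro ⟨y, hy⟩
        exact h2 ⟨y, by rw [hy, hfval]; rfl⟩

end Fermat.Agent.H25.CFT
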