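import Mathlib

/-!
# P-CFT (helper25): `p`-th power residues at a prime of a number field

`IsPowResidue p w x`: the element `x ∈ K` is congruent to a `p`-th power modulo the prime `w`
(valuation form, no integrality assumption on `x`).
-/

set_option autoImplicit false
set_option linter.style.haveILetI false

open IsDedekindDomain NumberField

namespace Fermat.Agent.H25.CFT

variable {K : Type*} [Field K] [NumberField K]

/-- `x` is a `p`-th power residue at `w`: it is approximable by a `p`-th power to positive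
order. -/
def IsPowResidue (p : ℕ) (w : HeightOneSpectrum (𝓞 K)) (x : K) : Prop :=
  ∃ y : K, w.valuation K (x - y ^ p) < 1

variable {p : ℕ} {w : HeightOneSpectrum (𝓞 K)}

theorem isPowResidue_pow (y : K) : IsPowResidue p w (y ^ p) :=
  ⟨y, by simp⟩

theorem isPowResidue_of_mem {x y : 𝓞 K} (h : x - y ^ p ∈ w.asIdeal) :
    IsPowResidue p w (x : K) := by
  refine ⟨(y : K), ?_⟩
  have := (w.valuation_lt_one_iff_mem (K := K) (x - y ^ p)).2 h
  simpa using this

/-- the witness of a power residue of a `w`-integral element is `w`-integral -/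
theorem IsPowResidue.valuation_le_one (hp : p ≠ 0) {x y : K} (hx : w.valuation K x ≤ 1)
    (hy : w.valuation K (x - y ^ p) < 1) : w.valuation K y ≤ 1 := by
  have h1 : w.valuation K (y ^ p) ≤ 1 := by
    have h2 : y ^ p = x - (x - y ^ p) := by ring
    rw [h2]
    exact (Valuation.map_sub _ _ _).trans (max_le hx hy.le)
  rw [map_pow] at h1
  exact (pow_le_one_iff hp).1 h1

theorem valuation_pow_sub_pow_lt_one {a y : K} (ha : w.valuation K a ≤ 1)
    (hy : w.valuation K y ≤ 1) (hay : w.valuation K (a - y) < 1) (n : ℕ) :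
    w.valuation K (a ^ n - y ^ n) < 1 := by
  have h := (Commute.all a y).mul_geom_sum₂ n
  rw [← h, map_mul]
  have hsum : w.valuation K (∑ i ∈ Finset.range n, a ^ i * y ^ (n - 1 - i)) ≤ 1 := by
    refine Valuation.map_sum_le _ (fun i _ => ?_)
    rw [map_mul, map_pow, map_pow]
    exact mul_le_one' (pow_le_one' ha _) (pow_le_one' hy _)
  calc w.valuation K (a - y) * w.valuation K (∑ i ∈ Finset.range n, a ^ i * y ^ (n - 1 - i))
      ≤ w.valuation K (a - y) * 1 := by gcongr
    _ < 1 := by rwa [mul_one]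

/-- For integral `x`, a power residue in the valuation sense is one in the ideal sense. -/
theorem exists_int_of_isPowResidue (hp : p ≠ 0) {x : 𝓞 K} (h : IsPowResidue p w (x : K)) :
    ∃ a : 𝓞 K, x - a ^ p ∈ w.asIdeal := by
  obtain ⟨y, hy⟩ := h
  have hx1 : w.valuation K (x : K) ≤ 1 := w.valuation_le_one x
  have hy1 : w.valuation K y ≤ 1 := IsPowResidue.valuation_le_one hp hx1 hy
  obtain ⟨a, ha⟩ := w.exists_valuation_sub_lt_of_integer hy1 1
  have ha' : w.valuation K ((a : K) - y) < 1 := by simpa using ha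
  have ha1 : w.valuation K (a : K) ≤ 1 := w.valuation_le_one a
  have h2 := valuation_pow_sub_pow_lt_one ha1 hy1 ha' p
  refine ⟨a, ?_⟩
  rw [← w.valuation_lt_one_iff_mem (K := K)]
  have h3 : ((algebraMap (𝓞 K) K) (x - a ^ p)) = ((x : K) - y ^ p) - ((a : K) ^ p - y ^ p) := by
    simp
  have h4 : w.valuation K ((algebraMap (𝓞 K) K) (x - a ^ p)) < 1 := by
    rw [h3]
    exact lt_of_le_of_lt (Valuation.map_sub _ _ _) (max_lt hy h2)
  exact h4

/-- multiplying by the `p`-th power of a `w`-unit does not change power residuosity -/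
theorem isPowResidue_mul_pow_iff {x u : K} (hu : w.valuation K u = 1) :
    IsPowResidue p w (x * u ^ p) ↔ IsPowResidue p w x := by
  have hu0 : u ≠ 0 := by
    rintro rfl
    simp at hu
  constructor
  · rintro ⟨y, hy⟩
    refine ⟨y / u, ?_⟩
    have h1 : x - (y / u) ^ p = (x * u ^ p - y ^ p) / u ^ p := by
      rw [div_pow, sub_div, mul_div_assoc, div_self (pow_ne_zero _ hu0), mul_one]
    rw [h1, map_div₀, map_pow, hu, one_pow, div_one]
    exact hy
  · rintro ⟨y, hy⟩
    refine ⟨y * u, ?_⟩
    have h1 : x * u ^ p - (y * u) ^ p = (x - y ^ p) * u ^ p := by ring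
    rw [h1, map_mul, map_pow, hu, one_pow, mul_one]
    exact hy

theorem IsPowResidue.mul {x x' : K} (hx : w.valuation K x ≤ 1) (hx' : w.valuation K x' ≤ 1)
    (hp : p ≠ 0) (h : IsPowResidue p w x) (h' : IsPowResidue p w x') :
    IsPowResidue p w (x * x') := by
  obtain ⟨y, hy⟩ := h
  obtain ⟨y', hy'⟩ := h'
  have hy1' : w.valuation K y' ≤ 1 := IsPowResidue.valuation_le_one hp hx' hy'
  refine ⟨y * y', ?_⟩
  have h1 : x * x' - (y * y') ^ p = x * (x' - y' ^ p) + y' ^ p * (x - y ^ p) := by ring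
  rw [h1]
  refine lt_of_le_of_lt (Valuation.map_add _ _ _) (max_lt ?_ ?_)
  · rw [map_mul]
    calc w.valuation K x * w.valuation K (x' - y' ^ p) ≤ 1 * w.valuation K (x' - y' ^ p) := by
          gcongr
      _ < 1 := by rwa [one_mul]
  · rw [map_mul, map_pow]
    calc w.valuation K y' ^ p * w.valuation K (x - y ^ p) ≤ 1 * w.valuation K (x - y ^ p) := by
          gcongr
          exact pow_le_one' hy1' _
      _ < 1 := by rwa [one_mul]

theorem IsPowResidue.inv {x : K} (hx : w.valuation K x = 1) (hp : p ≠ 0)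
    (h : IsPowResidue p w x) : IsPowResidue p w x⁻¹ := by
  obtain ⟨y, hy⟩ := h
  have hx0 : x ≠ 0 := by
    rintro rfl
    simp at hx
  -- `v (y ^ p) = 1`
  have hyp : w.valuation K (y ^ p) = 1 := by
    have h2 : y ^ p = x - (x - y ^ p) := by ring
    rw [h2, Valuation.map_sub_eq_of_lt_left _ (by rw [hx]; exact hy), hx]
  have hy0 : y ≠ 0 := by
    rintro rfl
    rw [zero_pow hp, map_zero] at hyp
    exact zero_ne_one hyp
  refine ⟨y⁻¹, ?_⟩
  have hyp0 : y ^ p ≠ 0 := pow_ne_zero _ hy0
  have h1 : x⁻¹ - y⁻¹ ^ p = -(x - y ^ p) / (x * y ^ p) := by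
    rw [inv_pow, eq_div_iff (mul_ne_zero hx0 hyp0), sub_mul, ← mul_assoc, inv_mul_cancel₀ hx0,
      one_mul, mul_comm x, ← mul_assoc, inv_mul_cancel₀ hyp0, one_mul]
    ring
  rw [h1, map_div₀, Valuation.map_neg, map_mul, hx, hyp, mul_one, div_one]
  exact hy

end Fermat.Agent.H25.CFT
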