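import Fermat.Agent.H25.CFT.KummerDensity
import Fermat.Agent.H25.CFT.KummerTower
import Fermat.Agent.H25.CFT.PowResidue

/-!
# P-CFT (helper25): one auxiliary prime (integral form)

`K ∋ ζ_p` a number field, `D ⊆ 𝓞 K ∖ {0}` finite, `b ∈ 𝓞 K ∖ {0}` with `b ∉ ⟨D⟩ (Kˣ)^p`.  Then
there is a prime `w` of `K` of prime norm `ℓ > N`, `ℓ ≠ p`, such that every `d ∈ D` is a `p`-th
power modulo `w` and `b` is not.
-/

set_option autoImplicit false
set_option linter.style.haveILetI false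

open IsDedekindDomain NumberField Ideal

namespace Fermat.Agent.H25.CFT

open Fermat.Agent.H43.Cft (powSubgroup)

/-- In a quotient of prime cardinality every element is the class of a natural number. -/
theorem exists_natCast_sub_mem {R : Type*} [CommRing R] (I : Ideal R)
    (hI : (Nat.card (R ⧸ I)).Prime) (y : R) : ∃ n : ℕ, y - (n : R) ∈ I := by
  classical
  haveI : Finite (R ⧸ I) := Nat.finite_of_card_ne_zero hI.ne_zero
  haveI : Fact (Nat.card (R ⧸ I)).Prime := ⟨hI⟩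
  -- the additive group `R ⧸ I` has prime order, so it is generated by `1 ≠ 0`
  have h1 : (1 : R ⧸ I) ≠ 0 := by
    intro h
    have hsub : Subsingleton (R ⧸ I) := subsingleton_of_zero_eq_one h.symm
    have := Nat.card_eq_one_iff_unique.2 ⟨hsub, ⟨0⟩⟩
    rw [this] at hI
    exact Nat.not_prime_one hI
  have htop : AddSubgroup.zmultiples (1 : R ⧸ I) = ⊤ :=
    zmultiples_eq_top_of_prime_card (p := Nat.card (R ⧸ I)) rfl h1
  have hy : Ideal.Quotient.mk I y ∈ AddSubgroup.zmultiples (1 : R ⧸ I) := by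
    rw [htop]; trivial
  obtain ⟨k, hk⟩ := AddSubgroup.mem_zmultiples_iff.1 hy
  -- reduce `k` modulo the cardinality to a natural number
  set q := Nat.card (R ⧸ I) with hq
  have hq0 : (q : R ⧸ I) = 0 := by
    have := card_nsmul_eq_zero' (G := R ⧸ I) (x := (1 : R ⧸ I))
    rw [nsmul_one] at this
    exact this
  have hkmod : (k : R ⧸ I) = ((k % (q : ℤ)).toNat : R ⧸ I) := by
    have hpos : (0 : ℤ) ≤ k % (q : ℤ) := Int.emod_nonneg _ (by exact_mod_cast hI.ne_zero)
    have h2 : ((k % (q : ℤ)).toNat : ℤ) = k % (q : ℤ) := Int.toNat_of_nonneg hpos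
    have h3 : k = (q : ℤ) * (k / (q : ℤ)) + k % (q : ℤ) := (Int.mul_ediv_add_emod k q).symm
    have h4 : ((k : ℤ) : R ⧸ I) = (((q : ℤ) * (k / (q : ℤ)) + k % (q : ℤ) : ℤ) : R ⧸ I) := by
      rw [← h3]
    rw [h4]
    push_cast
    rw [hq0, zero_mul, zero_add, ← h2]
    push_cast
    rfl
  refine ⟨(k % (q : ℤ)).toNat, ?_⟩
  rw [← Ideal.Quotient.eq_zero_iff_mem, map_sub, map_natCast, ← hkmod, ← hk, zsmul_one, sub_self]

/-- an integer not divisible by the prime norm of `v` is not in `v` -/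
theorem intCast_notMem_of_absNorm_prime {K : Type*} [Field K] [NumberField K]
    (v : HeightOneSpectrum (𝓞 K)) (n : ℤ) (hv : (absNorm v.asIdeal).Prime)
    (hn : ¬ ((absNorm v.asIdeal : ℕ) : ℤ) ∣ n) : ((n : ℤ) : 𝓞 K) ∉ v.asIdeal := by
  intro hmem
  have hl : ((absNorm v.asIdeal : ℕ) : 𝓞 K) ∈ v.asIdeal := Ideal.absNorm_mem v.asIdeal
  have hprime : Prime ((absNorm v.asIdeal : ℕ) : ℤ) := Nat.prime_iff_prime_int.1 hv
  have hcop : IsCoprime ((absNorm v.asIdeal : ℕ) : ℤ) n :=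
    (Prime.coprime_iff_not_dvd hprime).2 hn
  obtain ⟨a, b, hab⟩ := hcop
  have h1 : (1 : 𝓞 K) ∈ v.asIdeal := by
    have h2 : ((a * (absNorm v.asIdeal : ℤ) + b * n : ℤ) : 𝓞 K) = 1 := by
      rw [hab]; simp
    rw [← h2]
    push_cast
    exact v.asIdeal.add_mem (v.asIdeal.mul_mem_left _ hl) (v.asIdeal.mul_mem_left _ hmem)
  exact v.isPrime.ne_top ((Ideal.eq_top_iff_one _).mpr h1)

/-- a nonzero integer of absolute value less than the prime norm of `w` is a `w`-unit -/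
theorem valuation_intCast_eq_one {K : Type*} [Field K] [NumberField K]
    (w : HeightOneSpectrum (𝓞 K)) (n : ℤ) (hn0 : n ≠ 0) (hw : (absNorm w.asIdeal).Prime)
    (hlt : n.natAbs < absNorm w.asIdeal) : w.valuation K ((n : ℤ) : K) = 1 := by
  have h1 : ((n : ℤ) : 𝓞 K) ∉ w.asIdeal := by
    apply intCast_notMem_of_absNorm_prime w n hw
    intro hdvd
    have h2 : absNorm w.asIdeal ∣ n.natAbs := Int.natCast_dvd.1 hdvd
    have h3 := Nat.le_of_dvd (Int.natAbs_pos.2 hn0) h2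
    omega
  have h2 := (w.valuation_eq_one_iff_notMem (K := K) (r := ((n : ℤ) : 𝓞 K))).2 h1
  simpa using h2

/-- the prime of `K` below a prime `v` of `F` of prime norm has the same norm -/
theorem absNorm_comap_eq {K F : Type*} [Field K] [NumberField K] [Field F] [NumberField F]
    (ι : K →+* F) (v : Ideal (𝓞 F)) [v.IsPrime] (hv : (absNorm v).Prime) :
    absNorm (v.comap (RingOfIntegers.mapRingHom ι)) = absNorm v := by
  classical
  set w : Ideal (𝓞 K) := v.comap (RingOfIntegers.mapRingHom ι) with hw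
  set ℓ := absNorm v with hℓ
  have hfinv : Finite (𝓞 F ⧸ v) := by
    have : Nat.card (𝓞 F ⧸ v) ≠ 0 := by
      change absNorm v ≠ 0
      exact hv.ne_zero
    exact Nat.finite_of_card_ne_zero this
  have hinj : Function.Injective (Ideal.quotientMap v (RingOfIntegers.mapRingHom ι) le_rfl) :=
    Ideal.quotientMap_injective
  haveI : Finite (𝓞 K ⧸ w) := Finite.of_injective _ hinj
  have hle : Nat.card (𝓞 K ⧸ w) ≤ ℓ := @Nat.card_le_card_of_injective _ _ hfinv _ hinj
  -- `ℓ • 1 = 0` in `𝓞 K ⧸ w`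
  have hℓw : ((ℓ : ℕ) : 𝓞 K) ∈ w := by
    rw [hw, Ideal.mem_comap, map_natCast]
    exact Ideal.absNorm_mem v
  have h1 : (1 : 𝓞 K ⧸ w) ≠ 0 := by
    intro h
    have : (1 : 𝓞 K) ∈ w := by
      rw [← Ideal.Quotient.eq_zero_iff_mem]
      simpa using h
    have hwtop : w = ⊤ := (Ideal.eq_top_iff_one w).2 this
    have hvtop : (1 : 𝓞 F) ∈ v := by
      have : (1 : 𝓞 K) ∈ v.comap (RingOfIntegers.mapRingHom ι) := by rw [← hw, hwtop]; trivial
      simpa using this
    exact (Ideal.IsPrime.ne_top inferInstance) ((Ideal.eq_top_iff_one v).2 hvtop)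
  have hord : addOrderOf (1 : 𝓞 K ⧸ w) = ℓ := by
    refine addOrderOf_eq_prime (hp := ⟨hv⟩) ?_ h1
    rw [nsmul_one]
    have := (Ideal.Quotient.eq_zero_iff_mem (I := w)).2 hℓw
    simpa using this
  have hdvd : ℓ ∣ Nat.card (𝓞 K ⧸ w) := by
    rw [← hord]
    exact addOrderOf_dvd_natCard _
  have hpos : 0 < Nat.card (𝓞 K ⧸ w) := Nat.card_pos
  have := Nat.le_of_dvd hpos hdvd
  change Nat.card (𝓞 K ⧸ w) = ℓ
  omega

/-- **One auxiliary prime.**  `K ∋ ζ_p` a number field, `D ⊆ Kˣ` finite, `b ∈ Kˣ` not in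
`⟨D⟩ (Kˣ)^p`.  For every `N` there is a prime `w` of `K` of prime norm `ℓ > N`, `ℓ ≠ p`, at which
every `d ∈ D` is a `p`-th power residue and `b` is not. -/
theorem exists_aux_prime.{u} (p : ℕ) [hp : Fact p.Prime] (K : Type u) [Field K]
    [NumberField K] (ζ : K) (hζ : IsPrimitiveRoot ζ p) (D : Finset Kˣ) (b : Kˣ)
    (hb : b ∉ Subgroup.closure (D : Set Kˣ) ⊔ powSubgroup K p) (N : ℕ) :
    ∃ w : HeightOneSpectrum (𝓞 K), (absNorm w.asIdeal).Prime ∧ N < absNorm w.asIdeal ∧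
      absNorm w.asIdeal ≠ p ∧ (∀ d ∈ D, IsPowResidue p w (d : K)) ∧
      ¬ IsPowResidue p w (b : K) := by
  classical
  have hp0 : p ≠ 0 := hp.out.ne_zero
  -- denominators
  have hden : ∀ x : Kˣ, ∃ n : ℤ, n ≠ 0 ∧ IsIntegral ℤ (n • (x : K)) := fun x =>
    IsAlgebraic.exists_integral_multiple
      ((IsFractionRing.isAlgebraic_iff ℤ ℚ K).2 (Algebra.IsAlgebraic.isAlgebraic (x : K)))
  choose den hden0 hdenint using hden
  have hdenK : ∀ x : Kˣ, ((den x : ℤ) : K) ≠ 0 := fun x => by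
    exact_mod_cast hden0 x
  set u : Kˣ → Kˣ := fun x => Units.mk0 ((den x : ℤ) : K) (hdenK x) with hu
  set tw : Kˣ → Kˣ := fun x => x * u x ^ p with htw
  have htwint : ∀ x : Kˣ, IsIntegral ℤ ((tw x : Kˣ) : K) := by
    intro x
    have h1 : ((tw x : Kˣ) : K) = (den x • (x : K)) * ((den x : ℤ) : K) ^ (p - 1) := by
      simp only [htw, hu, Units.val_mul, Units.val_pow_eq_pow_val, Units.val_mk0, zsmul_eq_mul]
      have : p = (p - 1) + 1 := (Nat.sub_add_cancel hp.out.one_le).symm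
      conv_lhs => rw [this, pow_succ]
      ring
    rw [h1]
    exact (hdenint x).mul (IsIntegral.pow (isIntegral_algebraMap (R := ℤ) (x := den x)) _)
  set D' : Finset Kˣ := D.image tw with hD'
  have hb' : tw b ∉ Subgroup.closure (D' : Set Kˣ) ⊔ powSubgroup K p := by
    intro h
    apply hb
    have hle : Subgroup.closure (D' : Set Kˣ) ⊔ powSubgroup K p ≤
        Subgroup.closure (D : Set Kˣ) ⊔ powSubgroup K p := by
      refine sup_le ?_ le_sup_right
      rw [Subgroup.closure_le]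
      intro y hy
      rw [hD', Finset.coe_image] at hy
      obtain ⟨x, hx, rfl⟩ := hy
      exact Subgroup.mul_mem_sup (Subgroup.subset_closure hx) (mem_powSubgroup_iff.2 ⟨_, rfl⟩)
    have h2 := hle h
    have h3 : b = tw b * ((u b)⁻¹) ^ p := by
      simp only [htw]
      rw [mul_assoc, ← mul_pow, mul_inv_cancel, one_pow, mul_one]
    rw [h3]
    exact Subgroup.mul_mem _ h2 (Subgroup.mem_sup_right (mem_powSubgroup_iff.2 ⟨_, rfl⟩))
  -- the bound
  set N' : ℕ := max N (max (den b).natAbs (D.sup fun x => (den x).natAbs)) with hN'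
  -- the tower
  obtain ⟨F, iF, iN, ι, hF1, hF2⟩ := exists_kummer_tower p hp.out D'.card K ζ hζ D' le_rfl
    (tw b) hb'
  have hζF : IsPrimitiveRoot (ι ζ) p := hζ.map_of_injective ι.injective
  have hbFint : IsIntegral ℤ (ι ((tw b : Kˣ) : K)) := map_isIntegral_int ι (htwint b)
  obtain ⟨bK, hbKval⟩ : ∃ bK : 𝓞 K, (bK : K) = ((tw b : Kˣ) : K) := ⟨⟨_, htwint b⟩, rfl⟩
  obtain ⟨bF, hbF⟩ : ∃ bF : 𝓞 F, bF = RingOfIntegers.mapRingHom ι bK := ⟨_, rfl⟩
  have hbFval : (bF : F) = ι ((tw b : Kˣ) : K) := by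
    rw [hbF, RingOfIntegers.mapRingHom_apply, hbKval]
  obtain ⟨v, hv1, hv2, hv3, hv4⟩ := exists_degOne_not_pow p F (ι ζ) hζF bF
    (by rw [hbFval]; exact hF2) N'
  haveI := v.isPrime
  -- the prime below
  have hwprime : (v.asIdeal.comap (RingOfIntegers.mapRingHom ι)).IsPrime :=
    Ideal.comap_isPrime _ _
  have hwnorm : absNorm (v.asIdeal.comap (RingOfIntegers.mapRingHom ι)) = absNorm v.asIdeal :=
    absNorm_comap_eq ι v.asIdeal hv1
  have hwne : v.asIdeal.comap (RingOfIntegers.mapRingHom ι) ≠ ⊥ := by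
    intro h
    rw [h, Ideal.absNorm_bot] at hwnorm
    exact hv1.ne_zero hwnorm.symm
  set w : HeightOneSpectrum (𝓞 K) :=
    ⟨v.asIdeal.comap (RingOfIntegers.mapRingHom ι), hwprime, hwne⟩ with hw
  have hwN : absNorm w.asIdeal = absNorm v.asIdeal := hwnorm
  have hwP : (absNorm w.asIdeal).Prime := hwN ▸ hv1
  have hNle : N ≤ N' := le_max_left _ _
  -- units at `w`
  have huw : ∀ x : Kˣ, (x = b ∨ x ∈ D) → w.valuation K ((u x : Kˣ) : K) = 1 := by
    intro x hx
    simp only [hu, Units.val_mk0]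
    refine valuation_intCast_eq_one w (den x) (hden0 x) hwP ?_
    rw [hwN]
    refine lt_of_le_of_lt ?_ hv2
    rcases hx with rfl | hx
    · exact (le_max_left _ _).trans (le_max_right _ _)
    · exact (Finset.le_sup (f := fun x => (den x).natAbs) hx).trans
        ((le_max_right _ _).trans (le_max_right _ _))
  refine ⟨w, hwP, ?_, ?_, ?_, ?_⟩
  · rw [hwN]; omega
  · rw [hwN]; exact hv3
  · intro d hd
    have hdD' : tw d ∈ D' := Finset.mem_image_of_mem tw hd
    obtain ⟨y, hy⟩ := hF1 (tw d) hdD'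
    have hyint : IsIntegral ℤ y := by
      refine IsIntegral.of_pow hp.out.pos ?_
      rw [hy]
      exact map_isIntegral_int ι (htwint d)
    obtain ⟨yF, hyFval⟩ : ∃ yF : 𝓞 F, (yF : F) = y := ⟨⟨y, hyint⟩, rfl⟩
    obtain ⟨n, hn⟩ := exists_natCast_sub_mem v.asIdeal hv1 yF
    obtain ⟨dK, hdKval⟩ : ∃ dK : 𝓞 K, (dK : K) = ((tw d : Kˣ) : K) := ⟨⟨_, htwint d⟩, rfl⟩
    have hmapd : RingOfIntegers.mapRingHom ι dK = yF ^ p := by
      apply RingOfIntegers.ext
      have h1 : ((RingOfIntegers.mapRingHom ι dK : 𝓞 F) : F) = ι ((tw d : Kˣ) : K) := by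
        rw [RingOfIntegers.mapRingHom_apply, hdKval]
      have h2 : ((yF ^ p : 𝓞 F) : F) = y ^ p := by
        show (algebraMap (𝓞 F) F) (yF ^ p) = y ^ p
        rw [map_pow]
        exact congrArg (· ^ p) hyFval
      rw [h1, h2, hy]
    have hmap : RingOfIntegers.mapRingHom ι (dK - (n : 𝓞 K) ^ p) = yF ^ p - (n : 𝓞 F) ^ p := by
      rw [map_sub, map_pow, map_natCast, hmapd]
    have hmem : dK - (n : 𝓞 K) ^ p ∈ w.asIdeal := by
      have h3 : yF ^ p - (n : 𝓞 F) ^ p ∈ v.asIdeal :=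
        Ideal.mem_of_dvd _ (sub_dvd_pow_sub_pow _ _ _) hn
      rw [← hmap] at h3
      exact Ideal.mem_comap.2 h3
    have h1 : IsPowResidue p w (dK : K) := isPowResidue_of_mem (y := (n : 𝓞 K)) hmem
    rw [hdKval] at h1
    have h2 : ((tw d : Kˣ) : K) = (d : K) * ((u d : Kˣ) : K) ^ p := by
      simp only [htw, Units.val_mul, Units.val_pow_eq_pow_val]
    rw [h2] at h1
    exact (isPowResidue_mul_pow_iff (huw d (Or.inr hd))).1 h1
  · intro hcon
    have h2 : ((tw b : Kˣ) : K) = (b : K) * ((u b : Kˣ) : K) ^ p := by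
      simp only [htw, Units.val_mul, Units.val_pow_eq_pow_val]
    have h1 : IsPowResidue p w (bK : K) := by
      rw [hbKval, h2]
      exact (isPowResidue_mul_pow_iff (huw b (Or.inl rfl))).2 hcon
    obtain ⟨a, ha⟩ := exists_int_of_isPowResidue hp0 (x := bK) h1
    apply hv4
    refine ⟨RingOfIntegers.mapRingHom ι a, ?_⟩
    have hbb : bF - RingOfIntegers.mapRingHom ι a ^ p =
        RingOfIntegers.mapRingHom ι (bK - a ^ p) := by
      rw [map_sub, map_pow, hbF]
    rw [hbb]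
    exact Ideal.mem_comap.1 ha

end Fermat.Agent.H25.CFT
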