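import Mathlib

/-!
# P-CFT (helper25): elementary index lemmas for subgroups of a commutative group
-/

set_option autoImplicit false
set_option linter.style.haveILetI false

namespace Fermat.Agent.H25.CFT

variable {G : Type*} [CommGroup G]

/-- If `H / H'` is generated by the class of `b`, `b ∉ H'`, `b ^ p ∈ H'`, then `[H : H'] = p`. -/
theorem relIndex_eq_prime {p : ℕ} (hp : p.Prime) {H' H : Subgroup G} {b : G}
    (hbH : b ∈ H) (hb : b ∉ H') (hbp : b ^ p ∈ H')
    (hgen : ∀ y ∈ H, ∃ j : ℕ, y * b ^ j ∈ H') : H'.relIndex H = p := by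
  haveI : Fact p.Prime := ⟨hp⟩
  set N : Subgroup H := H'.subgroupOf H with hN
  set bq : H ⧸ N := QuotientGroup.mk ⟨b, hbH⟩ with hbq
  have hb1 : bq ≠ 1 := by
    rw [Ne, hbq, QuotientGroup.eq_one_iff, hN, Subgroup.mem_subgroupOf]
    exact hb
  have hbp1 : bq ^ p = 1 := by
    rw [hbq, ← QuotientGroup.mk_pow, QuotientGroup.eq_one_iff, hN, Subgroup.mem_subgroupOf]
    exact hbp
  have hord : orderOf bq = p := orderOf_eq_prime hbp1 hb1
  have htop : Subgroup.zpowers bq = ⊤ := by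
    rw [eq_top_iff]
    intro q _
    induction q using QuotientGroup.induction_on with
    | H y =>
      obtain ⟨j, hj⟩ := hgen y y.2
      have h1 : (QuotientGroup.mk y : H ⧸ N) * bq ^ j = 1 := by
        rw [hbq, ← QuotientGroup.mk_pow, ← QuotientGroup.mk_mul, QuotientGroup.eq_one_iff, hN,
          Subgroup.mem_subgroupOf]
        exact hj
      have h2 : (QuotientGroup.mk y : H ⧸ N) = (bq ^ j)⁻¹ := eq_inv_of_mul_eq_one_left h1
      rw [h2]
      exact Subgroup.inv_mem _ (Subgroup.pow_mem _ (Subgroup.mem_zpowers _) _)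
  have hcard : Nat.card (H ⧸ N) = p := by
    rw [← hord, ← Nat.card_zpowers, htop, Nat.card_congr (Subgroup.topEquiv (G := H ⧸ N)).toEquiv]
  rw [Subgroup.relIndex, Subgroup.index, ← hN]
  exact hcard

/-- If `H ≤ ⟨a⟩ · Q` and `a ^ p ∈ Q`, then `[H : H ∩ Q]` divides `p`. -/
theorem relIndex_dvd_prime_of_le_closure_sup {p : ℕ} {Q H : Subgroup G} {a : G}
    (hap : a ^ p ∈ Q) (hH : H ≤ Subgroup.zpowers a ⊔ Q) : Q.relIndex H ∣ p := by
  set π : G →* G ⧸ Q := QuotientGroup.mk' Q with hπ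
  have hker : π.ker = Q := QuotientGroup.ker_mk' Q
  have h1 : Q.relIndex H = Nat.card (H.map π) := by
    conv_lhs => rw [← hker]
    exact Subgroup.relIndex_ker H π
  have h2 : H.map π ≤ Subgroup.zpowers (π a) := by
    rintro _ ⟨y, hy, rfl⟩
    obtain ⟨u, hu, q, hq, rfl⟩ := Subgroup.mem_sup.1 (hH hy)
    obtain ⟨k, rfl⟩ := Subgroup.mem_zpowers_iff.1 hu
    have hq1 : π q = 1 := by
      rw [hπ, QuotientGroup.mk'_apply, QuotientGroup.eq_one_iff]; exact hq
    rw [map_mul, hq1, mul_one, map_zpow]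
    exact Subgroup.zpow_mem _ (Subgroup.mem_zpowers _) _
  have h3 : (π a) ^ p = 1 := by
    rw [← map_pow, hπ, QuotientGroup.mk'_apply, QuotientGroup.eq_one_iff]; exact hap
  have h4 : Nat.card (Subgroup.zpowers (π a)) ∣ p := by
    rw [Nat.card_zpowers]
    exact orderOf_dvd_of_pow_eq_one h3
  rw [h1]
  exact (Subgroup.card_dvd_of_le h2).trans h4

end Fermat.Agent.H25.CFT
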