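import Mathlib
import Fermat.Agent.H25.CFT.PowResidue

/-!
# P-CFT (helper25): the group of units modulo `p`-th power residues at a prime is cyclic

`exists_pow_mul_isPowResidue`: if `b` is a `w`-unit which is not a `p`-th power residue at `w`,
then every `w`-unit `y` is of the form `(residue) * b ^ (-j)`, i.e. `y * b ^ j` is a `p`-th
power residue for some `j`.
-/

set_option autoImplicit false
set_option linter.style.haveILetI false

open IsDedekindDomain NumberField

namespace Fermat.Agent.H25.CFT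

/-- In a finite cyclic group, the classes modulo `p`-th powers are generated by any non-`p`-th
power. -/
theorem exists_pow_mul_mem_range_pow {G : Type*} [CommGroup G] [Finite G] [IsCyclic G] {p : ℕ}
    (hp : p.Prime) {b : G} (hb : b ∉ (powMonoidHom p : G →* G).range) (y : G) :
    ∃ j : ℕ, y * b ^ j ∈ (powMonoidHom p : G →* G).range := by
  set H : Subgroup G := (powMonoidHom p : G →* G).range with hH
  haveI : Fact p.Prime := ⟨hp⟩
  have hexp : ∀ q : G ⧸ H, q ^ p = 1 := by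
    intro q
    induction q using QuotientGroup.induction_on with
    | H g =>
      rw [← QuotientGroup.mk_pow, QuotientGroup.eq_one_iff]
      exact ⟨g, rfl⟩
  have hb1 : (QuotientGroup.mk b : G ⧸ H) ≠ 1 := by
    rwa [Ne, QuotientGroup.eq_one_iff]
  have hcard : Nat.card (G ⧸ H) = p := by
    have h1 : Monoid.exponent (G ⧸ H) ∣ p := Monoid.exponent_dvd_of_forall_pow_eq_one hexp
    have h2 : Monoid.exponent (G ⧸ H) = Nat.card (G ⧸ H) := IsCyclic.exponent_eq_card
    rw [h2] at h1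
    rcases (Nat.dvd_prime hp).1 h1 with h3 | h3
    · exfalso
      have : Subsingleton (G ⧸ H) := (Nat.card_eq_one_iff_unique.1 h3).1
      exact hb1 (Subsingleton.elim _ _)
    · exact h3
  have htop : Subgroup.zpowers (QuotientGroup.mk b : G ⧸ H) = ⊤ :=
    zpowers_eq_top_of_prime_card hcard hb1
  have hmem : (QuotientGroup.mk y⁻¹ : G ⧸ H) ∈ Subgroup.zpowers (QuotientGroup.mk b : G ⧸ H) := by
    rw [htop]; trivial
  have hfin : IsOfFinOrder (QuotientGroup.mk b : G ⧸ H) := isOfFinOrder_of_finite _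
  rw [← hfin.mem_powers_iff_mem_zpowers] at hmem
  obtain ⟨j, hj⟩ := hmem
  refine ⟨j, ?_⟩
  rw [← QuotientGroup.eq_one_iff, QuotientGroup.mk_mul, QuotientGroup.mk_pow]
  simp only at hj
  rw [hj, QuotientGroup.mk_inv, mul_inv_cancel]

variable {K : Type*} [Field K] [NumberField K]
variable {p : ℕ} {w : HeightOneSpectrum (𝓞 K)}

theorem IsPowResidue.of_sub_lt {x x' : K} (h : IsPowResidue p w x)
    (hxx : w.valuation K (x - x') < 1) : IsPowResidue p w x' := by
  obtain ⟨y, hy⟩ := h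
  refine ⟨y, ?_⟩
  have e : x' - y ^ p = (x - y ^ p) - (x - x') := by ring
  rw [e]
  exact lt_of_le_of_lt (Valuation.map_sub _ _ _) (max_lt hy hxx)

theorem isPowResidue_congr {x x' : K} (hxx : w.valuation K (x - x') < 1) :
    IsPowResidue p w x ↔ IsPowResidue p w x' := by
  refine ⟨fun h => h.of_sub_lt hxx, fun h => h.of_sub_lt ?_⟩
  rw [← Valuation.map_neg, neg_sub]
  exact hxx

/-- A `w`-unit of `K` is congruent mod `w` to an element of `𝓞 K` outside `w`. -/
theorem exists_int_sub_lt {x : K} (hx : w.valuation K x = 1) :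
    ∃ a : 𝓞 K, a ∉ w.asIdeal ∧ w.valuation K (x - (a : K)) < 1 := by
  obtain ⟨a, ha⟩ := w.exists_valuation_sub_lt_of_integer hx.le 1
  have ha' : w.valuation K ((a : K) - x) < 1 := by simpa using ha
  have ha2 : w.valuation K (x - (a : K)) < 1 := by
    rw [← Valuation.map_neg, neg_sub]; exact ha'
  refine ⟨a, ?_, ha2⟩
  intro hmem
  have h1 : w.valuation K (a : K) < 1 := (w.valuation_lt_one_iff_mem (K := K) a).2 hmem
  have h2 : w.valuation K x < 1 := by
    have e : x = (x - (a : K)) + (a : K) := by ring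
    rw [e]
    exact lt_of_le_of_lt (Valuation.map_add _ _ _) (max_lt ha2 h1)
  rw [hx] at h2
  exact lt_irrefl _ h2

/-- The quotient of the `w`-units by the `p`-th power residues is generated by any
non-residue. -/
theorem exists_pow_mul_isPowResidue (hp : p.Prime) {b y : K} (hb : w.valuation K b = 1)
    (hy : w.valuation K y = 1) (hnb : ¬ IsPowResidue p w b) :
    ∃ j : ℕ, IsPowResidue p w (y * b ^ j) := by
  obtain ⟨b0, hb0, hbb⟩ := exists_int_sub_lt hb
  obtain ⟨y0, hy0, hyy⟩ := exists_int_sub_lt hy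
  haveI : w.asIdeal.IsMaximal := w.isMaximal
  letI : Field (𝓞 K ⧸ w.asIdeal) := Ideal.Quotient.field w.asIdeal
  haveI : Finite (𝓞 K ⧸ w.asIdeal) := Ideal.finiteQuotientOfFreeOfNeBot w.asIdeal w.ne_bot
  have hb0' : Ideal.Quotient.mk w.asIdeal b0 ≠ 0 := by
    rwa [Ne, Ideal.Quotient.eq_zero_iff_mem]
  have hy0' : Ideal.Quotient.mk w.asIdeal y0 ≠ 0 := by
    rwa [Ne, Ideal.Quotient.eq_zero_iff_mem]
  set bu : (𝓞 K ⧸ w.asIdeal)ˣ := Units.mk0 _ hb0' with hbu
  set yu : (𝓞 K ⧸ w.asIdeal)ˣ := Units.mk0 _ hy0' with hyu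
  have hbu_not : bu ∉ (powMonoidHom p : (𝓞 K ⧸ w.asIdeal)ˣ →* _).range := by
    rintro ⟨z, hz⟩
    apply hnb
    obtain ⟨z0, hz0⟩ := Ideal.Quotient.mk_surjective (z : 𝓞 K ⧸ w.asIdeal)
    have h1 : Ideal.Quotient.mk w.asIdeal (b0 - z0 ^ p) = 0 := by
      rw [map_sub, map_pow, hz0]
      have := congrArg (fun u : (𝓞 K ⧸ w.asIdeal)ˣ => (u : 𝓞 K ⧸ w.asIdeal)) hz
      simp only [powMonoidHom_apply, Units.val_pow_eq_pow_val, hbu, Units.val_mk0] at this
      rw [this, sub_self]
    rw [Ideal.Quotient.eq_zero_iff_mem] at h1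
    have h2 : IsPowResidue p w (b0 : K) := isPowResidue_of_mem h1
    refine h2.of_sub_lt ?_
    rw [← Valuation.map_neg, neg_sub]
    exact hbb
  obtain ⟨j, z, hz⟩ := exists_pow_mul_mem_range_pow hp hbu_not yu
  refine ⟨j, ?_⟩
  obtain ⟨z0, hz0⟩ := Ideal.Quotient.mk_surjective (z : 𝓞 K ⧸ w.asIdeal)
  have h1 : Ideal.Quotient.mk w.asIdeal (y0 * b0 ^ j - z0 ^ p) = 0 := by
    rw [map_sub, map_pow, map_mul, map_pow, hz0]
    have := congrArg (fun u : (𝓞 K ⧸ w.asIdeal)ˣ => (u : 𝓞 K ⧸ w.asIdeal)) hz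
    simp only [powMonoidHom_apply, Units.val_pow_eq_pow_val, hbu, hyu, Units.val_mk0,
      Units.val_mul] at this
    rw [this, sub_self]
  rw [Ideal.Quotient.eq_zero_iff_mem] at h1
  have h2 : IsPowResidue p w ((y0 * b0 ^ j : 𝓞 K) : K) := isPowResidue_of_mem h1
  refine h2.of_sub_lt ?_
  -- `y0 * b0 ^ j - y * b ^ j` has valuation `< 1`
  have hb0v : w.valuation K (b0 : K) ≤ 1 := w.valuation_le_one b0
  have hy0v : w.valuation K (y0 : K) ≤ 1 := w.valuation_le_one y0
  have hbj : w.valuation K (b ^ j - (b0 : K) ^ j) < 1 :=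
    valuation_pow_sub_pow_lt_one hb.le hb0v hbb j
  have e : ((y0 * b0 ^ j : 𝓞 K) : K) - y * b ^ j =
      -((y - (y0 : K)) * b ^ j + (y0 : K) * (b ^ j - (b0 : K) ^ j)) := by
    push_cast; ring
  rw [e, Valuation.map_neg]
  refine lt_of_le_of_lt (Valuation.map_add _ _ _) (max_lt ?_ ?_)
  · rw [map_mul, map_pow, hb, one_pow, mul_one]; exact hyy
  · rw [map_mul]
    calc w.valuation K (y0 : K) * w.valuation K (b ^ j - (b0 : K) ^ j)
        ≤ 1 * w.valuation K (b ^ j - (b0 : K) ^ j) := by gcongr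
      _ < 1 := by rwa [one_mul]

end Fermat.Agent.H25.CFT
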