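import Mathlib
import Fermat.Agent.H25.CFT.AuxPrimeCore
import Fermat.Agent.H25.CFT.ResidueChar
import Fermat.Agent.H25.CFT.IndexLemmas

/-!
# P-CFT (helper25): the set of auxiliary primes of Chevalley's proof (A5)

`K ∋ ζ_p`, `T` a finite set of primes, `B = O_T^×`, `a ∈ Kˣ`.  As long as
`p ^ (k + 1) ≤ [B : B ∩ (Kˣ)^p]` there is a set `W` of `k` primes of large prime norm `≠ p` such
that `a` is a `p`-th power residue at every `w ∈ W`, `[B : {x ∈ B residue at W}] = p ^ k`, and
`B → ∏_{w ∈ W} U_w / (residues)` is onto.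
-/

set_option autoImplicit false
set_option linter.style.haveILetI false

open IsDedekindDomain NumberField Ideal

namespace Fermat.Agent.H25.CFT

open Fermat.Agent.H43.Cft

variable {K : Type*} [Field K] [NumberField K]

theorem mem_sUnits_iff {T : Finset (HeightOneSpectrum (𝓞 K))} {x : Kˣ} :
    x ∈ SUnits K T ↔ ∀ v : HeightOneSpectrum (𝓞 K), v ∉ T → v.valuation K (x : K) = 1 := by
  constructor
  · intro h v hv
    exact h v (by simpa using hv)
  · intro h v hv
    exact h v (by simpa using hv)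

/-- The `W`-units which are `p`-th power residues at every `w ∈ W`. -/
def resSub (p : ℕ) [hp : Fact p.Prime] (W : Finset (HeightOneSpectrum (𝓞 K))) :
    Subgroup Kˣ where
  carrier := {x | ∀ w ∈ W, w.valuation K (x : K) = 1 ∧ IsPowResidue p w (x : K)}
  one_mem' := by
    intro w _
    refine ⟨by simp, ⟨1, by simp⟩⟩
  mul_mem' := by
    intro x y hx hy w hw
    obtain ⟨hx1, hx2⟩ := hx w hw
    obtain ⟨hy1, hy2⟩ := hy w hw
    refine ⟨by rw [Units.val_mul, map_mul, hx1, hy1, mul_one], ?_⟩
    rw [Units.val_mul]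
    exact IsPowResidue.mul hx1.le hy1.le hp.out.ne_zero hx2 hy2
  inv_mem' := by
    intro x hx w hw
    obtain ⟨hx1, hx2⟩ := hx w hw
    refine ⟨by rw [Units.val_inv_eq_inv_val, map_inv₀, hx1, inv_one], ?_⟩
    rw [Units.val_inv_eq_inv_val]
    exact IsPowResidue.inv hx1 hp.out.ne_zero hx2

theorem mem_resSub {p : ℕ} [Fact p.Prime] {W : Finset (HeightOneSpectrum (𝓞 K))} {x : Kˣ} :
    x ∈ resSub p W ↔ ∀ w ∈ W, w.valuation K (x : K) = 1 ∧ IsPowResidue p w (x : K) := Iff.rfl

theorem resSub_empty (p : ℕ) [Fact p.Prime] :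
    resSub p (∅ : Finset (HeightOneSpectrum (𝓞 K))) = ⊤ := by
  rw [eq_top_iff]
  intro x _
  rw [mem_resSub]
  intro w hw
  simp at hw

/-- the valuation of `p` at a prime of prime norm `≠ p` is one -/
theorem valuation_natCast_eq_one_of_absNorm_prime {p : ℕ} (hp : p.Prime)
    (w : HeightOneSpectrum (𝓞 K)) (hw : (absNorm w.asIdeal).Prime)
    (hne : absNorm w.asIdeal ≠ p) : w.valuation K ((p : ℕ) : K) = 1 := by
  have h1 := natCast_notMem_of_absNorm_prime' w p hp hw hne
  have h2 := (w.valuation_eq_one_iff_notMem (K := K) (r := ((p : ℕ) : 𝓞 K))).2 h1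
  simpa using h2

/-- **(A5) The auxiliary set of primes.** -/
theorem exists_aux_set.{u} (p : ℕ) [hp : Fact p.Prime] (K : Type u) [Field K] [NumberField K]
    (ζ : K) (hζ : IsPrimitiveRoot ζ p) (T : Finset (HeightOneSpectrum (𝓞 K))) (a : Kˣ) (N : ℕ)
    (hTN : ∀ v ∈ T, absNorm v.asIdeal ≤ N)
    (haN : ∀ w : HeightOneSpectrum (𝓞 K), N < absNorm w.asIdeal → w.valuation K (a : K) = 1)
    (k : ℕ) (hk : p ^ (k + 1) ≤ (powSubgroup K p).relIndex (SUnits K T)) :
    ∃ W : Finset (HeightOneSpectrum (𝓞 K)), W.card = k ∧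
      (∀ w ∈ W, N < absNorm w.asIdeal ∧ (absNorm w.asIdeal).Prime ∧ absNorm w.asIdeal ≠ p) ∧
      a ∈ resSub p W ∧ (resSub p W).relIndex (SUnits K T) = p ^ k ∧
      ∀ y : Kˣ, (∀ w ∈ W, w.valuation K (y : K) = 1) →
        ∃ u ∈ SUnits K T, y / u ∈ resSub p W := by
  classical
  have hp0 : p ≠ 0 := hp.out.ne_zero
  have hp1 : 1 < p := hp.out.one_lt
  set B : Subgroup Kˣ := SUnits K T with hB
  set Q : Subgroup Kˣ := powSubgroup K p with hQ
  -- elements of `B` are units at primes of norm `> N`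
  have hBunit : ∀ x ∈ B, ∀ w : HeightOneSpectrum (𝓞 K), N < absNorm w.asIdeal →
      w.valuation K (x : K) = 1 := by
    intro x hx w hw
    refine mem_sUnits_iff.1 hx w ?_
    intro hwT
    have := hTN w hwT
    omega
  induction k with
  | zero =>
    refine ⟨∅, rfl, ?_, ?_, ?_, ?_⟩
    · intro w hw; simp at hw
    · rw [resSub_empty]; trivial
    · rw [resSub_empty, Subgroup.relIndex_top_left, pow_zero]
    · intro y _
      refine ⟨1, Subgroup.one_mem _, ?_⟩
      rw [resSub_empty]; trivial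
  | succ k ih =>
    have hk' : p ^ (k + 1) ≤ Q.relIndex B :=
      le_trans (Nat.pow_le_pow_right hp.out.pos (by omega)) hk
    obtain ⟨W, hcard, hnorm, haW, hidx, hsurj⟩ := ih hk'
    set HW : Subgroup Kˣ := B ⊓ resSub p W with hHW
    have hHWB : HW ≤ B := inf_le_left
    have hBQ : B ⊓ Q ≤ HW := by
      intro x hx
      have hx1 : x ∈ B := (Subgroup.mem_inf.1 hx).1
      have hx2 : x ∈ Q := (Subgroup.mem_inf.1 hx).2
      refine Subgroup.mem_inf.2 ⟨hx1, ?_⟩
      rw [mem_resSub]
      intro w hw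
      refine ⟨hBunit x hx1 w (hnorm w hw).1, ?_⟩
      obtain ⟨e, he⟩ := hx2
      rw [← he]
      simp only [powMonoidHom_apply, Units.val_pow_eq_pow_val]
      exact isPowResidue_pow _
    -- existence of `b`
    have hexb : ∃ b ∈ HW, b ∉ Subgroup.closure ((({a} : Finset Kˣ) : Set Kˣ)) ⊔ Q := by
      by_contra hcon
      push Not at hcon
      have hle : HW ≤ Subgroup.zpowers a ⊔ Q := by
        intro x hx
        have := hcon x hx
        rwa [Finset.coe_singleton, ← Subgroup.zpowers_eq_closure] at this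
      have hap : a ^ p ∈ Q := ⟨a, rfl⟩
      have h1 : Q.relIndex HW ∣ p := relIndex_dvd_prime_of_le_closure_sup hap hle
      have h2 : (B ⊓ Q).relIndex HW * HW.relIndex B = (B ⊓ Q).relIndex B :=
        Subgroup.relIndex_mul_relIndex _ _ _ hBQ hHWB
      have h3 : (B ⊓ Q).relIndex B = Q.relIndex B := Subgroup.inf_relIndex_left _ _
      have h4 : HW.relIndex B = p ^ k := by
        rw [hHW, Subgroup.inf_relIndex_left]; exact hidx
      have h5' : B ⊓ Q ⊓ HW = Q ⊓ HW := by
        apply le_antisymm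
        · exact inf_le_inf_right _ inf_le_right
        · exact le_inf (le_inf (inf_le_right.trans hHWB) inf_le_left) inf_le_right
      have h5 : (B ⊓ Q).relIndex HW = Q.relIndex HW := by
        rw [← Subgroup.inf_relIndex_right (B ⊓ Q) HW, ← Subgroup.inf_relIndex_right Q HW, h5']
      rw [h3, h4, h5] at h2
      have h6 : Q.relIndex HW ≤ p := Nat.le_of_dvd hp.out.pos h1
      have h7 : Q.relIndex B ≤ p * p ^ k := by
        rw [← h2]; exact Nat.mul_le_mul_right _ h6
      have h8 : p * p ^ k < p ^ (k + 1 + 1) := by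
        rw [← pow_succ' p k]
        exact Nat.pow_lt_pow_right hp1 (by omega)
      omega
    obtain ⟨b, hbHW, hbnot⟩ := hexb
    obtain ⟨w, hwprime, hwN, hwp, hD, hnb⟩ := exists_aux_prime p K ζ hζ {a} b hbnot N
    have hbB : b ∈ B := (Subgroup.mem_inf.1 hbHW).1
    have hbW : b ∈ resSub p W := (Subgroup.mem_inf.1 hbHW).2
    have hwW : w ∉ W := by
      intro hw
      exact hnb ((mem_resSub.1 hbW) w hw).2
    have hbw : w.valuation K (b : K) = 1 := hBunit b hbB w hwN
    refine ⟨insert w W, ?_, ?_, ?_, ?_, ?_⟩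
    · rw [Finset.card_insert_of_notMem hwW, hcard]
    · intro w' hw'
      rcases Finset.mem_insert.1 hw' with rfl | hw'
      · exact ⟨hwN, hwprime, hwp⟩
      · exact hnorm w' hw'
    · rw [mem_resSub]
      intro w' hw'
      rcases Finset.mem_insert.1 hw' with rfl | hw'
      · exact ⟨haN _ hwN, hD a (Finset.mem_singleton_self a)⟩
      · exact (mem_resSub.1 haW) w' hw'
    · -- the index
      set HW' : Subgroup Kˣ := B ⊓ resSub p (insert w W) with hHW'
      have hle : HW' ≤ HW := by
        intro x hx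
        have hx1 : x ∈ B := (Subgroup.mem_inf.1 hx).1
        have hx2 : x ∈ resSub p (insert w W) := (Subgroup.mem_inf.1 hx).2
        refine Subgroup.mem_inf.2 ⟨hx1, ?_⟩
        rw [mem_resSub]
        intro w' hw'
        exact (mem_resSub.1 hx2) w' (Finset.mem_insert_of_mem hw')
      have hmemHW' : ∀ x : Kˣ, x ∈ HW → IsPowResidue p w (x : K) → x ∈ HW' := by
        intro x hx hres
        have hx1 : x ∈ B := (Subgroup.mem_inf.1 hx).1
        have hx2 : x ∈ resSub p W := (Subgroup.mem_inf.1 hx).2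
        refine Subgroup.mem_inf.2 ⟨hx1, ?_⟩
        rw [mem_resSub]
        intro w' hw'
        rcases Finset.mem_insert.1 hw' with rfl | hw'
        · exact ⟨hBunit x hx1 _ hwN, hres⟩
        · exact (mem_resSub.1 hx2) w' hw'
      have h1 : HW'.relIndex HW = p := by
        refine relIndex_eq_prime hp.out hbHW ?_ ?_ ?_
        · intro hb
          exact hnb ((mem_resSub.1 (Subgroup.mem_inf.1 hb).2) w (Finset.mem_insert_self w W)).2
        · refine hmemHW' _ (Subgroup.pow_mem _ hbHW p) ?_
          rw [Units.val_pow_eq_pow_val]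
          exact isPowResidue_pow _
        · intro y hy
          have hyw : w.valuation K (y : K) = 1 := hBunit y (Subgroup.mem_inf.1 hy).1 w hwN
          obtain ⟨j, hj⟩ := exists_pow_mul_isPowResidue hp.out hbw hyw hnb
          refine ⟨j, hmemHW' _ (Subgroup.mul_mem _ hy (Subgroup.pow_mem _ hbHW j)) ?_⟩
          rw [Units.val_mul, Units.val_pow_eq_pow_val]
          exact hj
      have h2 : HW'.relIndex HW * HW.relIndex B = HW'.relIndex B :=
        Subgroup.relIndex_mul_relIndex _ _ _ hle hHWB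
      have h4 : HW.relIndex B = p ^ k := by
        rw [hHW, Subgroup.inf_relIndex_left]; exact hidx
      rw [h1, h4, hHW', Subgroup.inf_relIndex_left] at h2
      rw [← h2, pow_succ']
    · -- surjectivity
      intro y hy
      obtain ⟨u, huB, hu⟩ := hsurj y (fun w' hw' => hy w' (Finset.mem_insert_of_mem hw'))
      have huw : w.valuation K (u : K) = 1 := hBunit u huB w hwN
      have hyw : w.valuation K (y : K) = 1 := hy w (Finset.mem_insert_self w W)
      have hyu : w.valuation K ((y / u : Kˣ) : K) = 1 := by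
        rw [Units.val_div_eq_div_val, map_div₀, hyw, huw, div_one]
      obtain ⟨j, hj⟩ := exists_pow_mul_isPowResidue hp.out hbw hyu hnb
      refine ⟨u * (b ^ j)⁻¹, Subgroup.mul_mem _ huB (Subgroup.inv_mem _ (Subgroup.pow_mem _ hbB j)),
        ?_⟩
      have e : y / (u * (b ^ j)⁻¹) = y / u * b ^ j := by
        rw [div_mul_eq_div_div, div_inv_eq_mul]
      rw [e, mem_resSub]
      intro w' hw'
      rcases Finset.mem_insert.1 hw' with rfl | hw'
      · refine ⟨?_, ?_⟩
        · rw [Units.val_mul, map_mul, hyu, Units.val_pow_eq_pow_val, map_pow, hbw, one_pow,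
            mul_one]
        · rw [Units.val_mul, Units.val_pow_eq_pow_val]
          exact hj
      · exact (mem_resSub.1 (Subgroup.mul_mem _ hu (Subgroup.pow_mem _ hbW j))) w' hw'

end Fermat.Agent.H25.CFT
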