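import Mathlib
import Fermat.Agent.H43.Cft.GlobalDefs
import Fermat.Agent.H25.CFT.PowResidue

/-!
# P-CFT GLOBAL block, second inequality: the independent leaves (Prop-defs) — helper25

The second inequality `Fermat.Agent.H43.Cft.SecondInequalityStatement` (Chevalley's algebraic
proof, at finite level, no ideles, no completions) is assembled by helper25 from

* `FirstInequalityStatement` and the split half of `LocalNormIndexStatement` (helper43's block);
* the auxiliary primes `Fermat.Agent.H25.CFT.exists_aux_prime` (landed, analytic density);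
* `powIndex_sUnits` (landed, helper43);
* and the five leaves below, all *local at one prime* and elementary:

  * `TameNewtonStatement` (2I-TAME): Newton iteration for `X ^ p - y` at a prime not above `p`;
  * `KummerSplitsStatement` (2I-SPLITS): if `x` is a local `p`-th power at `v`, then `v` splits
    in `K(x^{1/p})`;
  * `LocalPowIndexStatement` (2I-LOCIDX): `[K_v^× : K_v^{×p}] ≤ p² · N(v)^{ord_v p}`, in
    approximation form;
  * `KummerUnramifiedStatement` (2I-UNRAM): `K(x^{1/p})/K` is unramified at the primes not above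
    `p` where `x` is a unit;
  * `NormGeneratorStatement` (2I-NORMGEN): a split prime outside `T` is generated, up to `T`,
    by a global norm.
-/

open NumberField IsDedekindDomain

namespace Fermat.Agent.H25.CFT

open Fermat.Agent.H43.Cft

/-- **2I-TAME.**  At a prime `v` not above `p`, a `v`-unit which is a `p`-th power residue mod `v`
is a `p`-th power in the completion at `v` (approximation form: it is in `locPow K p v`). -/
def TameNewtonStatement.{u} : Prop :=
  ∀ (K : Type u) [Field K] [NumberField K] (p : ℕ), p.Prime →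
    ∀ v : HeightOneSpectrum (𝓞 K), v.valuation K ((p : ℕ) : K) = 1 →
    ∀ y : Kˣ, v.valuation K (y : K) = 1 → IsPowResidue p v (y : K) → y ∈ locPow K p v

/-- **2I-SPLITS.**  `L/K` Galois of prime degree `p`, `ζ_p ∈ K`, `θ ∈ L` with `θ ^ p = x ∈ Kˣ`,
`x` not a `p`-th power in `K`.  If `x` is a `p`-th power in the completion at `v`
(`x ∈ locPow K p v`), then `v` splits in `L`. -/
def KummerSplitsStatement.{u, v} : Prop :=
  ∀ (K : Type u) [Field K] [NumberField K] (L : Type v) [Field L] [NumberField L]
    [Algebra K L] [IsGalois K L] (p : ℕ), p.Prime → Module.finrank K L = p →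
    ∀ ζ : K, IsPrimitiveRoot ζ p →
    ∀ (x : Kˣ) (θ : L), θ ^ p = algebraMap K L (x : K) → x ∉ powSubgroup K p →
    ∀ v : HeightOneSpectrum (𝓞 K), x ∈ locPow K p v → ¬ Nonsplit K L v

/-- **2I-LOCIDX.**  The local index of the `p`-th powers, approximation form:
`[Kˣ : locPow K p v] ≤ p² · N(v)^e`, `e = ord_v(p)`, and the index is finite. -/
def LocalPowIndexStatement.{u} : Prop :=
  ∀ (K : Type u) [Field K] [NumberField K] (p : ℕ), p.Prime →
    ∀ ζ : K, IsPrimitiveRoot ζ p →
    ∀ (v : HeightOneSpectrum (𝓞 K)) (e : ℕ),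
      v.valuation K ((p : ℕ) : K) = WithZero.exp (-(e : ℤ)) →
      (locPow K p v).index ≠ 0 ∧ (locPow K p v).index ≤ p ^ 2 * Ideal.absNorm v.asIdeal ^ e

/-- **2I-UNRAM.**  `L/K` Galois of prime degree `p`, `ζ_p ∈ K`, `θ ∈ L` with `θ ^ p = x ∈ Kˣ`,
`x` not a `p`-th power in `K`.  A prime `w` of `L` whose restriction `v` to `K` is not above `p`
and satisfies `v(x) = 1` is unramified over `K`. -/
def KummerUnramifiedStatement.{u, v} : Prop :=
  ∀ (K : Type u) [Field K] [NumberField K] (L : Type v) [Field L] [NumberField L]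
    [Algebra K L] [IsGalois K L] (p : ℕ), p.Prime → Module.finrank K L = p →
    ∀ ζ : K, IsPrimitiveRoot ζ p →
    ∀ (x : Kˣ) (θ : L), θ ^ p = algebraMap K L (x : K) → x ∉ powSubgroup K p →
    ∀ w : HeightOneSpectrum (𝓞 L),
      (w.under (𝓞 K)).valuation K ((p : ℕ) : K) = 1 →
      (w.under (𝓞 K)).valuation K (x : K) = 1 →
      w.asIdeal.ramificationIdx (𝓞 K) = 1

/-- **2I-NORMGEN.**  In a cyclic setting with `Cl_T(L) = 0`, a prime `w ∉ T` of `K` which splits
in `L` has a generator up to `T` which is a global norm from `L`. -/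
def NormGeneratorStatement.{u, v} : Prop :=
  ∀ (K : Type u) [Field K] [NumberField K] (L : Type v) [Field L] [NumberField L]
    [Algebra K L] (p : ℕ) (T : Finset (HeightOneSpectrum (𝓞 K))),
    CyclicSetting K L p T → ClTrivial L (primesAbove K L T) →
    ∀ w : HeightOneSpectrum (𝓞 K), w ∉ T → ¬ Nonsplit K L w →
    ∃ n : Kˣ, n ∈ normSubgroup K L ∧ w.valuation K (n : K) = WithZero.exp (-1 : ℤ) ∧
      ∀ v' : HeightOneSpectrum (𝓞 K), v' ∉ T → v' ≠ w → v'.valuation K (n : K) = 1

end Fermat.Agent.H25.CFT
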