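import Mathlib
import Fermat.Agent.H43.Cft.GlobalDefs

/-!
# P-CFT second inequality: the split half of the local norm index (Prop-def) — helper25

`SplitLocNormStatement`: at a prime `v` of `K` which splits in the Galois extension `L/K` of
prime degree, every element of `Kˣ` is a local norm (`locNorm K L v = ⊤`).  This is the
elementary half `(S)` of `Fermat.Agent.H43.Cft.LocalNormIndexStatement`; the second inequality
uses only this half.
-/

open NumberField IsDedekindDomain

namespace Fermat.Agent.H25.CFT

open Fermat.Agent.H43.Cft

/-- **2I-SPLITNORM.**  At a split prime every element is a local norm. -/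
def SplitLocNormStatement.{u, v} : Prop :=
  ∀ (K : Type u) [Field K] [NumberField K] (L : Type v) [Field L] [NumberField L]
    [Algebra K L] [IsGalois K L] (p : ℕ), p.Prime → Module.finrank K L = p →
    ∀ v : HeightOneSpectrum (𝓞 K), ¬ Nonsplit K L v → locNorm K L v = ⊤

theorem splitLocNorm_of_localNormIndex.{u, v} (h : LocalNormIndexStatement.{u, v}) :
    SplitLocNormStatement.{u, v} :=
  fun K _ _ L _ _ _ _ p hp hdeg v hv => (h K L p hp hdeg v).2 hv

end Fermat.Agent.H25.CFT
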