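import Mathlib
import Fermat.Agent.H25.CFT.Interfaces
import Fermat.Agent.H25.CFT.SplitNormInterface
import Fermat.Agent.H25.CFT.AuxPrimeSet

/-!
# P-CFT (helper25): the key lemma of Chevalley's proof of the second inequality

`T* = T ∪ W`.  A `T*`-unit which is a local `p`-th power at every prime of `T` is a `p`-th power:
otherwise `L' = K(x^{1/p})` would be a cyclic extension of degree `p`, unramified outside `T*`,
with `normIdx K L' T* = 1`, contradicting the first inequality.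
-/

set_option autoImplicit false
set_option linter.style.haveILetI false

open IsDedekindDomain NumberField Ideal Polynomial

namespace Fermat.Agent.H25.CFT

open Fermat.Agent.H43.Cft

universe u

open scoped KummerExtension

/-- The Kummer extension `K(x^{1/p})` as a number field. -/
theorem exists_kummer_ext (K : Type u) [Field K] [NumberField K] (p : ℕ) (hp : p.Prime)
    (ζ : K) (hζ : IsPrimitiveRoot ζ p) (x : Kˣ) (hx : x ∉ powSubgroup K p) :
    ∃ (L : Type u) (_ : Field L) (_ : NumberField L) (_ : Algebra K L) (_ : IsGalois K L),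
      Module.finrank K L = p ∧ ∃ θ : L, θ ^ p = algebraMap K L (x : K) := by
  have hp0 : p ≠ 0 := hp.ne_zero
  have ha : ∀ b : K, b ^ p ≠ (x : K) := by
    intro b hb
    exact hx ((mem_powSubgroup_iff_val hp0).2 ⟨b, hb⟩)
  have hirr : Irreducible (X ^ p - C (x : K)) := X_pow_sub_C_irreducible_of_prime hp ha
  haveI : Fact (Irreducible (X ^ p - C (x : K))) := ⟨hirr⟩
  have hne : (X ^ p - C (x : K)) ≠ 0 := hirr.ne_zero
  haveI : Module.Finite K K[p√(x : K)] := (AdjoinRoot.powerBasis hne).finite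
  haveI : NumberField K[p√(x : K)] := NumberField.of_module_finite K _
  have hdeg : Module.finrank K K[p√(x : K)] = p := by
    rw [(AdjoinRoot.powerBasis hne).finrank, AdjoinRoot.powerBasis_dim,
      natDegree_X_pow_sub_C]
  have hθ : (AdjoinRoot.root (X ^ p - C (x : K))) ^ p = algebraMap K K[p√(x : K)] (x : K) := by
    have := AdjoinRoot.eval₂_root (X ^ p - C (x : K))
    rw [eval₂_sub, eval₂_pow, eval₂_X, eval₂_C, sub_eq_zero] at this
    exact this
  have hprim : (primitiveRoots p K).Nonempty :=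
    ⟨ζ, (mem_primitiveRoots hp.pos).2 hζ⟩
  haveI : IsSplittingField K K[p√(x : K)] (X ^ p - C (x : K)) :=
    isSplittingField_AdjoinRoot_X_pow_sub_C hprim hirr
  haveI : IsGalois K K[p√(x : K)] := isGalois_of_isSplittingField_X_pow_sub_C hprim hirr _
  exact ⟨K[p√(x : K)], inferInstance, inferInstance, inferInstance, inferInstance, hdeg, _, hθ⟩

section

variable {K : Type*} [Field K] [NumberField K]

theorem sUnits_mono {T T' : Finset (HeightOneSpectrum (𝓞 K))} (h : T ⊆ T') :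
    SUnits K T ≤ SUnits K T' := by
  intro x hx
  rw [Fermat.Agent.H25.CFT.mem_sUnits_iff] at hx ⊢
  intro v hv
  exact hx v (fun hvT => hv (h hvT))

theorem vClosure_mono' (v : HeightOneSpectrum (𝓞 K)) {H H' : Subgroup Kˣ} (h : H ≤ H') :
    vClosure K v H ≤ vClosure K v H' :=
  iInf_mono fun _ => sup_le_sup_right h _

theorem mem_PT_iff {p : ℕ} {T : Finset (HeightOneSpectrum (𝓞 K))} {x : Kˣ} :
    x ∈ PT K p T ↔ ∀ v ∈ T, x ∈ locPow K p v := by
  simp [PT, Subgroup.mem_iInf]

theorem mem_NT_iff {L : Type*} [Field L] [NumberField L] [Algebra K L]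
    {T : Finset (HeightOneSpectrum (𝓞 K))} {x : Kˣ} :
    x ∈ NT K L T ↔ ∀ v ∈ T, x ∈ locNorm K L v := by
  simp [NT, Subgroup.mem_iInf]

theorem powSubgroup_le_normSubgroup {L : Type*} [Field L] [NumberField L] [Algebra K L]
    {p : ℕ} (hdeg : Module.finrank K L = p) : powSubgroup K p ≤ normSubgroup K L := by
  rintro _ ⟨z, rfl⟩
  refine ⟨Units.map (algebraMap K L : K →* L) z, ?_⟩
  ext
  simp only [Units.coe_map, MonoidHom.coe_coe, powMonoidHom_apply, Units.val_pow_eq_pow_val]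
  rw [Algebra.norm_algebraMap, hdeg]

theorem locPow_le_locNorm {L : Type*} [Field L] [NumberField L] [Algebra K L]
    {p : ℕ} (hdeg : Module.finrank K L = p) (v : HeightOneSpectrum (𝓞 K)) :
    locPow K p v ≤ locNorm K L v :=
  vClosure_mono' v (powSubgroup_le_normSubgroup hdeg)

/-- the valuation of a unit is `exp n` -/
theorem exists_valuation_eq_exp (v : HeightOneSpectrum (𝓞 K)) (y : Kˣ) :
    ∃ n : ℤ, v.valuation K (y : K) = WithZero.exp n := by
  have h0 : v.valuation K (y : K) ≠ 0 := (Valuation.ne_zero_iff _).2 y.ne_zero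
  exact ⟨WithZero.log (v.valuation K (y : K)), (WithZero.exp_log h0).symm⟩

/-- If every `w ∈ W` has a generator up to `T` in the subgroup `H`, every element can be made a
`W`-unit by multiplying with an element of `H` which is a unit outside `T ∪ W`. -/
theorem exists_mul_unit_at_of_gen {T : Finset (HeightOneSpectrum (𝓞 K))} (H : Subgroup Kˣ)
    (W : Finset (HeightOneSpectrum (𝓞 K)))
    (hgen : ∀ w ∈ W, ∃ π : Kˣ, π ∈ H ∧ w.valuation K (π : K) = WithZero.exp (-1 : ℤ) ∧
      ∀ v : HeightOneSpectrum (𝓞 K), v ∉ T → v ≠ w → v.valuation K (π : K) = 1)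
    (hWT : ∀ w ∈ W, w ∉ T) (y : Kˣ) :
    ∃ z : Kˣ, z ∈ H ∧
      (∀ v : HeightOneSpectrum (𝓞 K), v ∉ T → v ∉ W → v.valuation K (z : K) = 1) ∧
      ∀ w ∈ W, w.valuation K ((y * z : Kˣ) : K) = 1 := by
  classical
  induction W using Finset.induction_on with
  | empty =>
    exact ⟨1, Subgroup.one_mem _, fun v _ _ => by simp, fun w hw => by simp at hw⟩
  | insert w W hwW ih =>
    obtain ⟨z, hzH, hz1, hz2⟩ := ih (fun w' hw' => hgen w' (Finset.mem_insert_of_mem hw'))
      (fun w' hw' => hWT w' (Finset.mem_insert_of_mem hw'))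
    have hwT : w ∉ T := hWT w (Finset.mem_insert_self w W)
    obtain ⟨π, hπH, hπ1, hπ2⟩ := hgen w (Finset.mem_insert_self w W)
    obtain ⟨n, hn⟩ := exists_valuation_eq_exp w (y * z)
    refine ⟨z * π ^ n, Subgroup.mul_mem _ hzH (Subgroup.zpow_mem _ hπH n), ?_, ?_⟩
    · intro v hvT hvW
      have hvw : v ≠ w := fun h => hvW (h ▸ Finset.mem_insert_self w W)
      have hvW' : v ∉ W := fun h => hvW (Finset.mem_insert_of_mem h)
      rw [Units.val_mul, map_mul, hz1 v hvT hvW', one_mul, Units.val_zpow_eq_zpow_val, map_zpow₀,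
        hπ2 v hvT hvw, one_zpow]
    · intro w' hw'
      rcases Finset.mem_insert.1 hw' with rfl | hw'
      · have e : y * (z * π ^ n) = (y * z) * π ^ n := by rw [mul_assoc]
        rw [e, Units.val_mul, map_mul, hn, Units.val_zpow_eq_zpow_val, map_zpow₀, hπ1,
          ← WithZero.exp_zsmul, ← WithZero.exp_add]
        simp
      · have hw'T : w' ∉ T := hWT w' (Finset.mem_insert_of_mem hw')
        have hw'w : w' ≠ w := fun h => hwW (h ▸ hw')
        have e : y * (z * π ^ n) = (y * z) * π ^ n := by rw [mul_assoc]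
        rw [e, Units.val_mul, map_mul, hz2 w' hw', one_mul, Units.val_zpow_eq_zpow_val,
          map_zpow₀, hπ2 w' hw'T hw'w, one_zpow]

/-- Using `Cl_T(K) = 0`, every element can be made a `W`-unit by a `T ∪ W`-unit. -/
theorem exists_mul_unit_at {T : Finset (HeightOneSpectrum (𝓞 K))} (hcl : ClTrivial K T)
    (W : Finset (HeightOneSpectrum (𝓞 K))) (hWT : ∀ w ∈ W, w ∉ T) (y : Kˣ) :
    ∃ z : Kˣ, (∀ v : HeightOneSpectrum (𝓞 K), v ∉ T → v ∉ W → v.valuation K (z : K) = 1) ∧
      ∀ w ∈ W, w.valuation K ((y * z : Kˣ) : K) = 1 := by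
  obtain ⟨z, -, hz1, hz2⟩ := exists_mul_unit_at_of_gen (T := T) ⊤ W (fun w hw => by
    obtain ⟨π, hπ1, hπ2⟩ := hcl w (hWT w hw)
    exact ⟨π, Subgroup.mem_top _, hπ1, hπ2⟩) hWT y
  exact ⟨z, hz1, hz2⟩

end

/-- **Key lemma.** -/
theorem key_lemma (h1 : FirstInequalityStatement.{u, u}) (hsn : SplitLocNormStatement.{u, u})
    (htame : TameNewtonStatement.{u}) (hsplits : KummerSplitsStatement.{u, u})
    (hunram : KummerUnramifiedStatement.{u, u})
    (K : Type u) [Field K] [NumberField K] (p : ℕ) [hp : Fact p.Prime] (hp2 : p ≠ 2)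
    (ζ : K) (hζ : IsPrimitiveRoot ζ p) (T W : Finset (HeightOneSpectrum (𝓞 K)))
    (hTp : ∀ v : HeightOneSpectrum (𝓞 K), (p : 𝓞 K) ∈ v.asIdeal → v ∈ T)
    (hcl : ClTrivial K T) (hWT : ∀ w ∈ W, w ∉ T)
    (hsurj : ∀ y : Kˣ, (∀ w ∈ W, w.valuation K (y : K) = 1) →
      ∃ u ∈ SUnits K T, y / u ∈ resSub p W)
    (Ts : Finset (HeightOneSpectrum (𝓞 K))) (hTs : ∀ v, v ∈ Ts ↔ v ∈ T ∨ v ∈ W)
    (x : Kˣ) (hxB : x ∈ SUnits K Ts) (hxP : x ∈ PT K p T) : x ∈ powSubgroup K p := by
  classical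
  have hTsub : T ⊆ Ts := fun v hv => (hTs v).2 (Or.inl hv)
  have hWsub : W ⊆ Ts := fun v hv => (hTs v).2 (Or.inr hv)
  by_contra hx
  obtain ⟨L, hF, hN, hA, hG, hdeg, θ, hθ⟩ := exists_kummer_ext K p hp.out ζ hζ x hx
  -- valuation of `p` outside `T`
  have hvp : ∀ v : HeightOneSpectrum (𝓞 K), v ∉ T → v.valuation K ((p : ℕ) : K) = 1 := by
    intro v hv
    have h2 : ((p : ℕ) : 𝓞 K) ∉ v.asIdeal := fun h => hv (hTp v h)
    have h3 := (v.valuation_eq_one_iff_notMem (K := K) (r := ((p : ℕ) : 𝓞 K))).2 h2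
    simpa using h3
  have hset : CyclicSetting K L p Ts := by
    refine ⟨hp.out, hp2, hG, hdeg, ?_, ?_, ?_⟩
    · intro v hv
      exact hTsub (hTp v hv)
    · intro w hw
      have hwT : w.under (𝓞 K) ∉ T := fun h => hw (hTsub h)
      refine hunram K L p hp.out hdeg ζ hζ x θ hθ hx w (hvp _ hwT) ?_
      exact (Fermat.Agent.H25.CFT.mem_sUnits_iff.1 hxB) _ hw
    · intro v hv
      have hvT : v ∉ T := fun h => hv (hTsub h)
      obtain ⟨π, hπ1, hπ2⟩ := hcl v hvT
      refine ⟨π, hπ1, fun w hw hwv => hπ2 w (fun h => hw (hTsub h)) hwv⟩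
  obtain ⟨-, hdvd⟩ := h1 K L p Ts hset
  -- the norm index is one
  have htop : SUnits K Ts ⊔ NT K L Ts = ⊤ := by
    rw [eq_top_iff]
    intro y _
    obtain ⟨z, hz1, hz2⟩ := exists_mul_unit_at hcl W hWT y
    have hzB : z ∈ SUnits K Ts := by
      rw [Fermat.Agent.H25.CFT.mem_sUnits_iff]
      intro v hv
      exact hz1 v (fun h => hv (hTsub h)) (fun h => hv (hWsub h))
    obtain ⟨u, huB, hu⟩ := hsurj (y * z) hz2
    have huB' : u ∈ SUnits K Ts := sUnits_mono hTsub huB
    have hN : y * z / u ∈ NT K L Ts := by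
      rw [mem_NT_iff]
      intro v hv
      rcases (hTs v).1 hv with hvT | hvW
      · have hxv : x ∈ locPow K p v := mem_PT_iff.1 hxP v hvT
        have hns : ¬ Nonsplit K L v := hsplits K L p hp.out hdeg ζ hζ x θ hθ hx v hxv
        rw [hsn K L p hp.out hdeg v hns]
        trivial
      · obtain ⟨hu1, hu2⟩ := (mem_resSub.1 hu) v hvW
        exact locPow_le_locNorm hdeg v
          (htame K p hp.out v (hvp v (hWT v hvW)) _ hu1 hu2)
    have e : y = (u * z⁻¹) * (y * z / u) := by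
      rw [div_eq_mul_inv]
      have e1 : u * z⁻¹ * (y * z * u⁻¹) = y * (u * u⁻¹) * (z * z⁻¹) := by ac_rfl
      rw [e1, mul_inv_cancel, mul_inv_cancel, mul_one, mul_one]
    rw [e]
    exact Subgroup.mul_mem_sup (Subgroup.mul_mem _ huB' (Subgroup.inv_mem _ hzB)) hN
  have hidx : normIdx K L Ts = 1 := by
    rw [normIdx, htop, Subgroup.index_top]
  rw [hidx] at hdvd
  exact hp.out.one_lt.ne' (Nat.dvd_one.1 hdvd)

end Fermat.Agent.H25.CFT
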