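import Mathlib
import Fermat.Agent.H25.CFT.Interfaces
import Fermat.Agent.H25.CFT.KeyLemma

/-!
# P-CFT (helper25): the index count of Chevalley's proof of the second inequality

`[Kˣ : O_{T*}^× · PT(T)] ∣ p`, from the local index bound `LocalPowIndexStatement`, the `S`-unit
theorem and the key lemma.
-/

set_option autoImplicit false
set_option linter.style.haveILetI false

open IsDedekindDomain NumberField Ideal

namespace Fermat.Agent.H25.CFT

open Fermat.Agent.H43.Cft

universe u

section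

variable {K : Type*} [Field K] [NumberField K]

/-- the index of the `p`-th powers in the `T`-units, as a relative index in `Kˣ` -/
theorem relIndex_powSubgroup_sUnits {p : ℕ} (hp : p ≠ 0) {ζ : K} (hζ : IsPrimitiveRoot ζ p)
    (T : Finset (HeightOneSpectrum (𝓞 K))) :
    (powSubgroup K p).relIndex (SUnits K T) =
      p ^ (Fintype.card (InfinitePlace K) + T.card) := by
  rw [← powIndex_sUnits K T hp hζ, powIndex_def, Subgroup.relIndex]
  congr 1
  ext ⟨x, hx⟩
  rw [Subgroup.mem_subgroupOf, MonoidHom.mem_range]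
  constructor
  · rintro ⟨e, he⟩
    have he' : e ^ p = x := he
    have heB : e ∈ SUnits K T := by
      rw [Fermat.Agent.H25.CFT.mem_sUnits_iff]
      intro v hv
      have h1 := (Fermat.Agent.H25.CFT.mem_sUnits_iff.1 hx) v hv
      rw [← he', Units.val_pow_eq_pow_val, map_pow] at h1
      exact (pow_eq_one_iff.1 h1).resolve_right hp
    exact ⟨⟨e, heB⟩, Subtype.ext he'⟩
  · rintro ⟨⟨e, heB⟩, he⟩
    exact ⟨e, congrArg Subtype.val he⟩

/-- a finite-index subgroup containing all `p`-th powers has `p`-power index -/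
theorem exists_index_eq_pow {G : Type*} [CommGroup G] {p : ℕ} [Fact p.Prime] (P : Subgroup G)
    (hP : P.index ≠ 0) (hpow : ∀ g : G, g ^ p ∈ P) : ∃ k : ℕ, P.index = p ^ k := by
  haveI : P.FiniteIndex := ⟨hP⟩
  haveI : Finite (G ⧸ P) := Subgroup.finite_quotient_of_finiteIndex
  have hpg : IsPGroup p (G ⧸ P) := by
    intro q
    refine ⟨1, ?_⟩
    induction q using QuotientGroup.induction_on with
    | H g =>
      rw [pow_one, ← QuotientGroup.mk_pow, QuotientGroup.eq_one_iff]
      exact hpow g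
  obtain ⟨n, hn⟩ := hpg.exists_card_eq
  exact ⟨n, hn⟩

/-- the valuation of `p` in terms of the factorization of `(p)` -/
theorem valuation_natCast_eq_exp_count (p : ℕ) (hp : p ≠ 0) (v : HeightOneSpectrum (𝓞 K)) :
    v.valuation K ((p : ℕ) : K) = WithZero.exp (-(((Associates.mk v.asIdeal).count
      (Associates.mk (Ideal.span {((p : ℕ) : 𝓞 K)})).factors : ℕ) : ℤ)) := by
  have hp' : ((p : ℕ) : 𝓞 K) ≠ 0 := Nat.cast_ne_zero.2 hp
  have h1 : ((p : ℕ) : K) = algebraMap (𝓞 K) K ((p : ℕ) : 𝓞 K) := (map_natCast _ p).symm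
  rw [h1, HeightOneSpectrum.valuation_of_algebraMap, HeightOneSpectrum.intValuation_if_neg _ hp']

/-- `∏_{v ∈ T} N(v)^{ord_v p} = p^{[K:ℚ]}` when `T` contains the primes above `p` -/
theorem prod_absNorm_pow_count (p : ℕ) (hp : p ≠ 0) (T : Finset (HeightOneSpectrum (𝓞 K)))
    (hTp : ∀ v : HeightOneSpectrum (𝓞 K), ((p : ℕ) : 𝓞 K) ∈ v.asIdeal → v ∈ T) :
    ∏ v ∈ T, absNorm v.asIdeal ^ ((Associates.mk v.asIdeal).count
      (Associates.mk (Ideal.span {((p : ℕ) : 𝓞 K)})).factors) = p ^ Module.finrank ℚ K := by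
  classical
  have hp' : ((p : ℕ) : 𝓞 K) ≠ 0 := Nat.cast_ne_zero.2 hp
  set I : Ideal (𝓞 K) := Ideal.span {((p : ℕ) : 𝓞 K)} with hI
  have hI0 : I ≠ 0 := by
    rw [hI, Ne, Ideal.zero_eq_bot, Ideal.span_singleton_eq_bot]
    exact hp'
  have h1 := Ideal.finprod_heightOneSpectrum_factorization hI0
  have hsub : Function.mulSupport (fun v : HeightOneSpectrum (𝓞 K) => v.maxPowDividing I) ⊆
      (T : Set (HeightOneSpectrum (𝓞 K))) := by
    intro v hv
    rw [Function.mem_mulSupport] at hv
    by_contra hvT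
    apply hv
    have hcount : (Associates.mk v.asIdeal).count (Associates.mk I).factors = 0 := by
      by_contra hc
      have hdvd : v.asIdeal ∣ I := (Associates.count_ne_zero_iff_dvd hI0 v.irreducible).1 hc
      have hle : I ≤ v.asIdeal := Ideal.le_of_dvd hdvd
      exact hvT (hTp v (hle (Ideal.subset_span (Set.mem_singleton _))))
    rw [HeightOneSpectrum.maxPowDividing, hcount, pow_zero]
  rw [finprod_eq_prod_of_mulSupport_subset _ hsub] at h1
  have h2 := congrArg absNorm h1
  rw [map_prod] at h2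
  have h3 : absNorm I = p ^ Module.finrank ℚ K := by
    rw [hI, Ideal.absNorm_span_natCast, RingOfIntegers.rank]
  rw [h3] at h2
  rw [← h2]
  refine Finset.prod_congr rfl (fun v _ => ?_)
  rw [HeightOneSpectrum.maxPowDividing, map_pow]

theorem powSubgroup_le_PT (p : ℕ) (T : Finset (HeightOneSpectrum (𝓞 K))) :
    powSubgroup K p ≤ PT K p T := by
  intro x hx
  rw [mem_PT_iff]
  intro v _
  exact (le_iInf fun _ => le_sup_left : powSubgroup K p ≤ locPow K p v) hx

theorem finrank_le_two_mul_card : Module.finrank ℚ K ≤ 2 * Fintype.card (InfinitePlace K) := by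
  have h1 := InfinitePlace.card_add_two_mul_card_eq_rank K
  have h2 := InfinitePlace.card_eq_nrRealPlaces_add_nrComplexPlaces K
  omega

end

/-- **The count.** -/
theorem count_index (hidx : LocalPowIndexStatement.{u}) (K : Type u) [Field K] [NumberField K]
    (p : ℕ) [hp : Fact p.Prime] (ζ : K) (hζ : IsPrimitiveRoot ζ p)
    (T Ts : Finset (HeightOneSpectrum (𝓞 K)))
    (hTp : ∀ v : HeightOneSpectrum (𝓞 K), ((p : ℕ) : 𝓞 K) ∈ v.asIdeal → v ∈ T)
    (hcard : 2 * (Fintype.card (InfinitePlace K) + T.card) ≤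
      Fintype.card (InfinitePlace K) + Ts.card + 1)
    (hkey : ∀ x : Kˣ, x ∈ SUnits K Ts → x ∈ PT K p T → x ∈ powSubgroup K p) :
    (SUnits K Ts ⊔ PT K p T).index ∣ p := by
  classical
  have hp0 : p ≠ 0 := hp.out.ne_zero
  have hp1 : 1 < p := hp.out.one_lt
  set P : Subgroup Kˣ := PT K p T with hP
  set Q : Subgroup Kˣ := powSubgroup K p with hQ
  set B : Subgroup Kˣ := SUnits K Ts with hB
  set r : ℕ := Fintype.card (InfinitePlace K) with hr
  set c : HeightOneSpectrum (𝓞 K) → ℕ := fun v => (Associates.mk v.asIdeal).count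
    (Associates.mk (Ideal.span {((p : ℕ) : 𝓞 K)})).factors with hc
  have hQP : Q ≤ P := powSubgroup_le_PT p T
  have hloc : ∀ v : HeightOneSpectrum (𝓞 K), (locPow K p v).index ≠ 0 ∧
      (locPow K p v).index ≤ p ^ 2 * absNorm v.asIdeal ^ c v := fun v =>
    hidx K p hp.out ζ hζ v (c v) (valuation_natCast_eq_exp_count p hp0 v)
  -- index of `P`
  have hPeq : P = ⨅ v : T, locPow K p v.1 := by
    rw [hP, PT, iInf_subtype']
  have hPne : P.index ≠ 0 := by
    rw [hPeq]
    exact Subgroup.index_iInf_ne_zero (fun v => (hloc v.1).1)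
  have hPle : P.index ≤ p ^ (2 * T.card + Module.finrank ℚ K) := by
    calc P.index ≤ ∏ v : T, (locPow K p v.1).index := by
          rw [hPeq]; exact Subgroup.index_iInf_le _
      _ = ∏ v ∈ T, (locPow K p v).index :=
          Finset.prod_coe_sort T (fun v => (locPow K p v).index)
      _ ≤ ∏ v ∈ T, (p ^ 2 * absNorm v.asIdeal ^ c v) :=
          Finset.prod_le_prod' (fun v _ => (hloc v).2)
      _ = p ^ (2 * T.card + Module.finrank ℚ K) := by
          rw [Finset.prod_mul_distrib, Finset.prod_const, prod_absNorm_pow_count p hp0 T hTp,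
            ← pow_mul, ← pow_add]
  obtain ⟨k, hk⟩ := exists_index_eq_pow P hPne (fun g => hQP ⟨g, rfl⟩)
  have hk_le : k ≤ 2 * T.card + Module.finrank ℚ K := by
    rw [hk] at hPle
    exact (Nat.pow_le_pow_iff_right hp1).1 hPle
  have hfin : Module.finrank ℚ K ≤ 2 * r := finrank_le_two_mul_card
  -- the relative index
  have h5 : P.relIndex (B ⊔ P) * (B ⊔ P).index = P.index :=
    Subgroup.relIndex_mul_index le_sup_right
  have h6 : P.relIndex (B ⊔ P) = P.relIndex B := Subgroup.relIndex_sup_right B P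
  have h7 : P ⊓ B = Q ⊓ B := by
    apply le_antisymm
    · intro x hx
      have hx1 : x ∈ P := (Subgroup.mem_inf.1 hx).1
      have hx2 : x ∈ B := (Subgroup.mem_inf.1 hx).2
      exact Subgroup.mem_inf.2 ⟨hkey x hx2 hx1, hx2⟩
    · exact inf_le_inf_right _ hQP
  have h8 : P.relIndex B = Q.relIndex B := by
    rw [← Subgroup.inf_relIndex_right P B, ← Subgroup.inf_relIndex_right Q B, h7]
  have h9 : Q.relIndex B = p ^ (r + Ts.card) := relIndex_powSubgroup_sUnits hp0 hζ Ts
  rw [h6, h8, h9, hk] at h5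
  have h10 : (B ⊔ P).index ∣ p ^ k := Dvd.intro_left _ h5
  obtain ⟨j, hjk, hj⟩ := (Nat.dvd_prime_pow hp.out).1 h10
  rw [hj, ← pow_add] at h5
  have h11 : r + Ts.card + j = k := Nat.pow_right_injective hp1 h5
  have hj1 : j ≤ 1 := by omega
  rw [hj]
  exact pow_dvd_pow p hj1 |>.trans (by rw [pow_one])

end Fermat.Agent.H25.CFT
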