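import Fermat.Agent.H25.CFT.KummerSplit
import Fermat.Agent.H62.ClaimZ
import Fermat.Agent.H15.S14Neg

/-!
# P-CFT (helper25): density core of the auxiliary-prime lemma

* `exists_prime_notMem_of_split`: a set `S` of primes of `K` each of which has `p` primes of the
  same norm above it in a fixed number field `M`, together with a set `T` of primes with
  `∑ 1/N(v) < ∞`, cannot exhaust all primes of `K` (`p ≥ 2`).
* `exists_degOne_not_pow`: if `b ∈ 𝓞 F` is not a `p`-th power in `F ∋ ζ_p`, there is a prime of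
  `F` of prime norm `ℓ > N` modulo which `b` is not a `p`-th power.
-/

set_option autoImplicit false
set_option linter.style.haveILetI false

open Filter Topology IsDedekindDomain NumberField Ideal

namespace Fermat.Agent.H25.CFT

open Fermat.Agent.H62

theorem primeZetaSum_le_of_cover (K : Type*) [Field K] [NumberField K]
    (S T : Set (HeightOneSpectrum (𝓞 K)))
    (hcov : ∀ v : HeightOneSpectrum (𝓞 K), v ∈ S ∨ v ∈ T) {s : ℝ} (hs : 1 < s) :
    primeZetaSum K s ≤ (∑' v : S, primeTerm K s v) + (∑' v : T, primeTerm K s v) := by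
  have hsum := summable_primeTerm K hs
  have hS : Summable (S.indicator (primeTerm K s)) := hsum.indicator S
  have hT : Summable (T.indicator (primeTerm K s)) := hsum.indicator T
  rw [tsum_subtype S (primeTerm K s), tsum_subtype T (primeTerm K s), ← hS.tsum_add hT,
    primeZetaSum]
  refine hsum.tsum_le_tsum (fun v => ?_) (hS.add hT)
  have hpos := (primeTerm_pos K s v).le
  have h2 : 0 ≤ T.indicator (primeTerm K s) v :=
    Set.indicator_nonneg (fun v _ => (primeTerm_pos K s v).le) v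
  have h2' : 0 ≤ S.indicator (primeTerm K s) v :=
    Set.indicator_nonneg (fun v _ => (primeTerm_pos K s v).le) v
  rcases hcov v with hvS | hvT
  · have h1 : S.indicator (primeTerm K s) v = primeTerm K s v := Set.indicator_of_mem hvS _
    linarith
  · have h1 : T.indicator (primeTerm K s) v = primeTerm K s v := Set.indicator_of_mem hvT _
    linarith

/-- **Covering lemma.** -/
theorem exists_prime_notMem_of_split (p : ℕ) (hp2 : 2 ≤ p) (K : Type*) [Field K] [NumberField K]
    (M : Type*) [Field M] [NumberField M]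
    (S : Set (HeightOneSpectrum (𝓞 K)))
    (e : S × Fin p → HeightOneSpectrum (𝓞 M)) (he : Function.Injective e)
    (hN : ∀ x, absNorm (e x).asIdeal = absNorm x.1.1.asIdeal)
    (T : Set (HeightOneSpectrum (𝓞 K)))
    (hT : Summable (fun v : T => (absNorm v.1.asIdeal : ℝ)⁻¹)) :
    ∃ v : HeightOneSpectrum (𝓞 K), v ∉ S ∧ v ∉ T := by
  by_contra hcon
  push Not at hcon
  have hcov : ∀ v : HeightOneSpectrum (𝓞 K), v ∈ S ∨ v ∈ T := by
    intro v
    by_cases hv : v ∈ S
    · exact Or.inl hv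
    · exact Or.inr (hcon v hv)
  obtain ⟨A, hA⟩ := density_of_split K p M S e he hN
  have hev1 : ∀ᶠ s : ℝ in 𝓝[>] 1, 1 < s := self_mem_nhdsWithin
  set CT := ∑' v : T, (absNorm v.1.asIdeal : ℝ)⁻¹ with hCT
  set C1 := 2 * primeZetaSum K 2 with hC1
  set r := dedekindZeta_residue K with hr
  have hr0 : 0 < r := dedekindZeta_residue_pos K
  set Dtot := A * Real.exp (p * (CT + C1)) with hDtot
  set c := (r / 2) ^ p with hc
  have key : ∀ᶠ s : ℝ in 𝓝[>] 1, c ≤ Dtot * (s - 1) ^ (p - 1) := by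
    filter_upwards [hA, eventually_idealZeta_bounds K, hev1] with s h1 h2 h3
    set t := s - 1 with htdef
    have ht : 0 < t := by simp only [htdef]; linarith
    set z := idealZeta K s with hz
    set PS := primeZetaSum K s with hPS
    set sumS := ∑' v : S, primeTerm K s v with hsumS
    set sumT := ∑' v : T, primeTerm K s v with hsumT
    have hz0 : 0 < z := idealZeta_pos K h3
    have h_a : z ≤ Real.exp (PS + C1) := idealZeta_le_exp K h3
    have h_c : PS ≤ sumS + sumT := primeZetaSum_le_of_cover K S T hcov h3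
    have h_f : sumT ≤ CT := tsum_subtype_primeTerm_le K T hT h3
    have hA0 : 0 < A := by
      have h1' : 0 < A / t := (Real.exp_pos _).trans_le h1
      exact (div_pos_iff_of_pos_right ht).mp h1'
    have hp0 : (0 : ℝ) ≤ p := Nat.cast_nonneg p
    have hstep : r / 2 ≤ t * Real.exp (sumS + (CT + C1)) := by
      calc r / 2 ≤ t * z := h2.1
        _ ≤ t * Real.exp (PS + C1) := mul_le_mul_of_nonneg_left h_a ht.le
        _ ≤ t * Real.exp (sumS + (CT + C1)) := by
            refine mul_le_mul_of_nonneg_left (Real.exp_le_exp.mpr ?_) ht.le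
            linarith
    have h2' : (r / 2) ^ p ≤ (t * Real.exp (sumS + (CT + C1))) ^ p :=
      pow_le_pow_left₀ (by positivity) hstep p
    have h3' : (t * Real.exp (sumS + (CT + C1))) ^ p =
        t ^ p * (Real.exp (p * sumS) * Real.exp (p * (CT + C1))) := by
      rw [mul_pow, ← Real.exp_nat_mul, ← Real.exp_add]
      congr 2
      ring
    have h7 : t ^ p = t ^ (p - 1) * t := by
      rw [← pow_succ]; congr 1; omega
    calc c ≤ t ^ p * (Real.exp (p * sumS) * Real.exp (p * (CT + C1))) := h3' ▸ h2'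
      _ ≤ t ^ p * ((A / t) * Real.exp (p * (CT + C1))) := by
          refine mul_le_mul_of_nonneg_left ?_ (by positivity)
          exact mul_le_mul_of_nonneg_right h1 (Real.exp_pos _).le
      _ = Dtot * t ^ (p - 1) := by
          rw [h7, hDtot]; field_simp
  have hlim : Tendsto (fun s : ℝ => Dtot * (s - 1) ^ (p - 1)) (𝓝[>] 1) (𝓝 0) := by
    have hcont : Continuous (fun s : ℝ => Dtot * (s - 1) ^ (p - 1)) := by fun_prop
    have h1 := hcont.tendsto 1
    have h2 : Dtot * ((1 : ℝ) - 1) ^ (p - 1) = 0 := by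
      rw [sub_self, zero_pow (by omega), mul_zero]
    rw [h2] at h1
    exact h1.mono_left nhdsWithin_le_nhds
  have hpos : 0 < c := by positivity
  obtain ⟨s, h1, h2⟩ := (key.and (hlim.eventually (gt_mem_nhds hpos))).exists
  linarith

/-- a prime ideal whose absolute norm is a prime `ℓ ≠ p` does not contain `p`. -/
theorem natCast_notMem_of_absNorm_prime' {K : Type*} [Field K] [NumberField K]
    (v : HeightOneSpectrum (𝓞 K)) (p : ℕ) (hp : p.Prime)
    (hv : (absNorm v.asIdeal).Prime) (hne : absNorm v.asIdeal ≠ p) :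
    ((p : ℕ) : 𝓞 K) ∉ v.asIdeal := by
  intro hmem
  have hl : ((absNorm v.asIdeal : ℕ) : 𝓞 K) ∈ v.asIdeal := Ideal.absNorm_mem v.asIdeal
  have hcop : Nat.Coprime (absNorm v.asIdeal) p := (Nat.coprime_primes hv hp).mpr hne
  have hcop' : IsCoprime ((absNorm v.asIdeal : ℕ) : ℤ) (p : ℤ) := Nat.isCoprime_iff_coprime.mpr hcop
  obtain ⟨a, b, hab⟩ := hcop'
  have h1 : (1 : 𝓞 K) ∈ v.asIdeal := by
    have h2 : ((a * (absNorm v.asIdeal : ℤ) + b * (p : ℤ) : ℤ) : 𝓞 K) = 1 := by
      rw [hab]; simp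
    rw [← h2]
    push_cast
    exact v.asIdeal.add_mem (v.asIdeal.mul_mem_left _ hl) (v.asIdeal.mul_mem_left _ hmem)
  exact v.isPrime.ne_top ((Ideal.eq_top_iff_one _).mpr h1)

/-- The set of primes of norm `≤ N` is finite. -/
theorem finite_setOf_absNorm_le (F : Type*) [Field F] [NumberField F] (N : ℕ) :
    {v : HeightOneSpectrum (𝓞 F) | absNorm v.asIdeal ≤ N}.Finite := by
  have h := Ideal.finite_setOfPred_absNorm_le (S := 𝓞 F) N
  refine Set.Finite.of_injOn (f := fun v : HeightOneSpectrum (𝓞 F) => v.asIdeal)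
    (t := {I : Ideal (𝓞 F) | absNorm I ≤ N}) ?_ ?_ h
  · intro v hv
    exact hv
  · intro v _ w _ hvw
    exact HeightOneSpectrum.ext hvw

/-- **Lemma D.** If `b ∈ 𝓞 F` is not a `p`-th power in `F` (which contains a primitive `p`-th
root of unity), then for every `N` there is a prime `v` of `F` whose norm is a prime number
`> N` and `≠ p`, with `b ∉ v`, such that `b` is not a `p`-th power modulo `v`. -/
theorem exists_degOne_not_pow.{u} (p : ℕ) [hp : Fact p.Prime] (F : Type u) [Field F]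
    [NumberField F]
    (ζ : F) (hζ : IsPrimitiveRoot ζ p) (b : 𝓞 F) (hb : ¬ ∃ x : F, x ^ p = (b : F)) (N : ℕ) :
    ∃ v : HeightOneSpectrum (𝓞 F), (absNorm v.asIdeal).Prime ∧ N < absNorm v.asIdeal ∧
      absNorm v.asIdeal ≠ p ∧ ¬ ∃ y : 𝓞 F, b - y ^ p ∈ v.asIdeal := by
  classical
  set S : Set (HeightOneSpectrum (𝓞 F)) :=
    {v | ((p : ℕ) : 𝓞 F) ∉ v.asIdeal ∧ b ∉ v.asIdeal ∧ ∃ x : 𝓞 F, b - x ^ p ∈ v.asIdeal} with hS
  set T₀ : Set (HeightOneSpectrum (𝓞 F)) :=
    {v | ¬ (absNorm v.asIdeal).Prime ∨ absNorm v.asIdeal = p} with hT₀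
  have hb0 : b ≠ 0 := by
    rintro rfl
    exact hb ⟨0, by simp [hp.out.ne_zero]⟩
  set N' : ℕ := max N (absNorm (Ideal.span {b})) with hN'
  set T₁ : Set (HeightOneSpectrum (𝓞 F)) := {v | absNorm v.asIdeal ≤ N'} with hT₁
  obtain ⟨M, _, _, e, he, hN⟩ := exists_split_field_of_notMem p F ζ hζ b hb S (fun v hv => hv)
  have hT₀sum : Summable (fun v : T₀ => (absNorm v.1.asIdeal : ℝ)⁻¹) :=
    Fermat.Agent.H15.summable_inv_absNorm_not_degOne F p
  have hT₁fin : T₁.Finite := finite_setOf_absNorm_le F N'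
  have hTsum : Summable (fun v : (T₀ ∪ T₁ : Set (HeightOneSpectrum (𝓞 F))) =>
      (absNorm v.1.asIdeal : ℝ)⁻¹) := by
    have h0 : Summable (T₀.indicator fun v : HeightOneSpectrum (𝓞 F) =>
        (absNorm v.asIdeal : ℝ)⁻¹) := summable_subtype_iff_indicator.1 hT₀sum
    have h1 : Summable (T₁.indicator fun v : HeightOneSpectrum (𝓞 F) =>
        (absNorm v.asIdeal : ℝ)⁻¹) :=
      summable_of_hasFiniteSupport (hT₁fin.subset Set.support_indicator_subset)
    refine (summable_subtype_iff_indicator (s := T₀ ∪ T₁)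
      (f := fun v : HeightOneSpectrum (𝓞 F) => (absNorm v.asIdeal : ℝ)⁻¹)).2 ?_
    refine Summable.of_nonneg_of_le (fun v => ?_) (fun v => ?_) (h0.add h1)
    · exact Set.indicator_nonneg (fun v _ => by positivity) v
    · have hn : ∀ (X : Set (HeightOneSpectrum (𝓞 F))), 0 ≤ X.indicator
          (fun v : HeightOneSpectrum (𝓞 F) => (absNorm v.asIdeal : ℝ)⁻¹) v :=
        fun X => Set.indicator_nonneg (fun v _ => by positivity) v
      by_cases hv : v ∈ T₀ ∪ T₁
      · rw [Set.indicator_of_mem hv]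
        rcases hv with hv | hv
        · rw [Set.indicator_of_mem hv]
          linarith [hn T₁]
        · rw [Set.indicator_of_mem (s := T₁) hv]
          linarith [hn T₀]
      · rw [Set.indicator_of_notMem hv]
        linarith [hn T₀, hn T₁]
  obtain ⟨v, hvS, hvT⟩ := exists_prime_notMem_of_split p hp.out.two_le F M S e he hN
    (T₀ ∪ T₁) hTsum
  have hvT₀ : v ∉ T₀ := fun h => hvT (Or.inl h)
  have hvT₁ : v ∉ T₁ := fun h => hvT (Or.inr h)
  simp only [hT₀, Set.mem_ofPred_eq, not_or, not_not] at hvT₀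
  simp only [hT₁, Set.mem_ofPred_eq, not_le] at hvT₁
  refine ⟨v, hvT₀.1, lt_of_le_of_lt (le_max_left _ _) hvT₁, hvT₀.2, ?_⟩
  rintro ⟨y, hy⟩
  apply hvS
  refine ⟨natCast_notMem_of_absNorm_prime' v p hp.out hvT₀.1 hvT₀.2, ?_, ⟨y, hy⟩⟩
  intro hbv
  have hle : Ideal.span {b} ≤ v.asIdeal := (Ideal.span_singleton_le_iff_mem _).2 hbv
  have hdvd := Ideal.absNorm_dvd_absNorm_of_le hle
  have hne : absNorm (Ideal.span {b}) ≠ 0 := by
    rw [Ne, Ideal.absNorm_eq_zero_iff, Ideal.span_singleton_eq_bot]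
    exact hb0
  have := Nat.le_of_dvd (Nat.pos_of_ne_zero hne) hdvd
  have h2 := le_max_right N (absNorm (Ideal.span {b}))
  omega

end Fermat.Agent.H25.CFT
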