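import Mathlib

/-!
# P-CFT (helper25): the single-generator Kummer lemma

`K` a field containing a primitive `p`-th root of unity (`p` prime), `d ∈ K` not a `p`-th power,
`K₁ = K[p√d]`.  If `c ∈ Kˣ` becomes a `p`-th power in `K₁`, then `c = d ^ j * e ^ p` with `e ∈ K`.
-/

set_option autoImplicit false
set_option linter.style.haveILetI false

open Polynomial
open scoped KummerExtension

namespace Fermat.Agent.H25.CFT

section

variable {K : Type*} [Field K] {p : ℕ}

/-- `d` is nonzero if it is not a `p`-th power (`p ≥ 1`). -/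
theorem ne_zero_of_not_pow (hp : p.Prime) {d : K} (hd : ∀ b : K, b ^ p ≠ d) : d ≠ 0 := by
  rintro rfl
  exact hd 0 (zero_pow hp.ne_zero)

/-- **Single-generator Kummer lemma.** -/
theorem kummer_single (hp : p.Prime) {ζ : K} (hζ : IsPrimitiveRoot ζ p)
    {d : K} (hd : ∀ b : K, b ^ p ≠ d) {c : K} (hc : c ≠ 0)
    (γ : K[p√d]) (hγ : γ ^ p = algebraMap K K[p√d] c) :
    ∃ (j : ℕ) (e : K), c = d ^ j * e ^ p := by
  classical
  haveI : NeZero p := ⟨hp.ne_zero⟩
  have hd0 : d ≠ 0 := ne_zero_of_not_pow hp hd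
  have hirr : Irreducible (X ^ p - C d) := X_pow_sub_C_irreducible_of_prime hp hd
  haveI : Fact (Irreducible (X ^ p - C d)) := ⟨hirr⟩
  have hprim : (primitiveRoots p K).Nonempty := ⟨ζ, (mem_primitiveRoots hp.pos).2 hζ⟩
  haveI : IsSplittingField K K[p√d] (X ^ p - C d) :=
    isSplittingField_AdjoinRoot_X_pow_sub_C hprim hirr
  haveI : IsGalois K K[p√d] := isGalois_of_isSplittingField_X_pow_sub_C hprim hirr K[p√d]
  haveI : FiniteDimensional K K[p√d] := (AdjoinRoot.powerBasis hirr.ne_zero).finite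
  have hfin : Module.finrank K K[p√d] = p :=
    finrank_of_isSplittingField_X_pow_sub_C hprim hirr K[p√d]
  have hcard : Nat.card (K[p√d] ≃ₐ[K] K[p√d]) = p := by
    rw [IsGalois.card_aut_eq_finrank, hfin]
  -- the root and the automorphism
  set δ : K[p√d] := AdjoinRoot.root (X ^ p - C d) with hδ
  have hδp : δ ^ p = algebraMap K K[p√d] d := by
    have := root_X_pow_sub_C_pow p d
    simpa [AdjoinRoot.algebraMap_eq] using this
  have hδ0 : δ ≠ 0 := by
    intro h
    rw [h, zero_pow hp.ne_zero] at hδp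
    exact hd0 ((map_eq_zero_iff _ (algebraMap K K[p√d]).injective).1 hδp.symm)
  have hζu : ζ ^ p = 1 := hζ.pow_eq_one
  let η : rootsOfUnity p K := ⟨(hζ.isUnit hp.ne_zero).unit, by
    rw [mem_rootsOfUnity]
    ext
    simpa using hζu⟩
  set σ : K[p√d] ≃ₐ[K] K[p√d] := autAdjoinRootXPowSubC p d η with hσdef
  have hσδ : σ δ = algebraMap K K[p√d] ζ * δ := by
    have := autAdjoinRootXPowSubC_root (n := p) d η
    rw [Algebra.smul_def] at this
    simpa [σ, η] using this
  set ζ' : K[p√d] := algebraMap K K[p√d] ζ with hζ'def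
  have hζ' : IsPrimitiveRoot ζ' p := hζ.map_of_injective (algebraMap K K[p√d]).injective
  have hζ'0 : ζ' ≠ 0 := hζ'.ne_zero hp.ne_zero
  -- `σ ≠ 1`
  have hσne : σ ≠ 1 := by
    intro h
    have h1 : σ δ = δ := by rw [h]; rfl
    rw [hσδ] at h1
    have h2 : ζ' = 1 := by
      have := mul_right_cancel₀ hδ0 (h1.trans (one_mul δ).symm)
      exact this
    exact hζ'.ne_one hp.one_lt h2
  haveI : Fact p.Prime := ⟨hp⟩
  have htop : Subgroup.zpowers σ = ⊤ := zpowers_eq_top_of_prime_card hcard hσne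
  -- `γ ≠ 0`
  have hγ0 : γ ≠ 0 := by
    intro h
    rw [h, zero_pow hp.ne_zero] at hγ
    exact hc ((map_eq_zero_iff _ (algebraMap K K[p√d]).injective).1 hγ.symm)
  -- `σ γ = ζ' ^ j * γ`
  have hσγp : (σ γ / γ) ^ p = 1 := by
    rw [div_pow, ← map_pow, hγ, AlgEquiv.commutes, div_self]
    rw [← hγ]
    exact pow_ne_zero _ hγ0
  obtain ⟨j, -, hj⟩ := hζ'.eq_pow_of_pow_eq_one hσγp
  have hσγ : σ γ = ζ' ^ j * γ := by
    rw [hj, div_mul_cancel₀ _ hγ0]
  -- `ε := γ / δ ^ j` is fixed by `σ`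
  set ε : K[p√d] := γ / δ ^ j with hε
  have hσε : σ ε = ε := by
    rw [hε, map_div₀, map_pow, hσγ, hσδ, mul_pow]
    field_simp
  have hfix : ∀ τ : K[p√d] ≃ₐ[K] K[p√d], τ ε = ε := by
    intro τ
    have hτ : τ ∈ Subgroup.zpowers σ := by rw [htop]; trivial
    obtain ⟨k, rfl⟩ := Subgroup.mem_zpowers_iff.1 hτ
    have hstab : σ ∈ MulAction.stabilizer (K[p√d] ≃ₐ[K] K[p√d]) ε := by
      rw [MulAction.mem_stabilizer_iff]
      exact hσε
    have := Subgroup.zpow_mem _ hstab k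
    rw [MulAction.mem_stabilizer_iff] at this
    exact this
  obtain ⟨e, he⟩ := (IsGalois.mem_range_algebraMap_iff_fixed (F := K) (E := K[p√d]) ε).2 hfix
  refine ⟨j, e, ?_⟩
  apply (algebraMap K K[p√d]).injective
  rw [map_mul, map_pow, map_pow, he, ← hδp, ← hγ, hε, div_pow, ← pow_mul, ← pow_mul,
    mul_comm p j, mul_div_cancel₀]
  exact pow_ne_zero _ hδ0

end

end Fermat.Agent.H25.CFT
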