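import Fermat.Agent.H54.S14Split

/-!
# P-CFT (helper25): splitting of primes in `K(γ^(1/p))`, for `γ ∈ 𝓞 K` not necessarily a unit

Generalisation of `Fermat.Agent.H54.exists_split_field` (helper54): `γ ∈ 𝓞 K` is only assumed to
be prime to the primes under consideration.
-/

set_option autoImplicit false
set_option linter.style.haveILetI false

open NumberField Polynomial IsDedekindDomain

namespace Fermat.Agent.H25.CFT

open Fermat.Agent.H54

section Core

variable {A B : Type*} [CommRing A] [CommRing B] [IsDomain B] [Algebra A B] {p : ℕ}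
  [hp : Fact p.Prime]

variable (ζ x γ : A) (Θ : B) (s : B ≃ₐ[A] B)

/-- The `p` conjugates of a prime `𝔓` over `P` under the Kummer automorphism are pairwise
distinct (`γ ∉ P` instead of `γ` a unit). -/
theorem comap_pow_injective_of_notMem (hζ : IsPrimitiveRoot (algebraMap A B ζ) p)
    (hΘ : Θ ^ p = algebraMap A B γ) (hs : s Θ = algebraMap A B ζ * Θ) (P : Ideal A)
    (hγ : γ ∉ P) (hpP : (p : A) ∉ P) (hx : γ - x ^ p ∈ P) (𝔓 : Ideal B) [h𝔓 : 𝔓.IsPrime]
    (hover : 𝔓.comap (algebraMap A B) = P) :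
    Function.Injective (fun k : Fin p => 𝔓.comap ((s ^ (k : ℕ) : B ≃ₐ[A] B) : B →+* B)) := by
  have h0 : Θ ^ p - algebraMap A B x ^ p ∈ 𝔓 := by
    have : Θ ^ p - algebraMap A B x ^ p = algebraMap A B (γ - x ^ p) := by
      rw [hΘ, map_sub, map_pow]
    rw [this, ← Ideal.mem_comap, hover]
    exact hx
  obtain ⟨i, hi⟩ := exists_pow_mul_sub_mem hζ Θ (algebraMap A B x) 𝔓 h0
  intro k l hkl
  simp only at hkl
  have hcomm : ∀ k : ℕ, (((s ^ k : B ≃ₐ[A] B) : B →+* B)).comp (algebraMap A B) =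
      algebraMap A B := by
    intro k
    ext a
    simp only [RingHom.comp_apply, RingHom.coe_coe]
    exact (s ^ k).commutes a
  obtain ⟨𝔔, h𝔔⟩ : ∃ 𝔔 : Ideal B, 𝔔 = 𝔓.comap ((s ^ (k : ℕ) : B ≃ₐ[A] B) : B →+* B) := ⟨_, rfl⟩
  have hprime : 𝔔.IsPrime := by rw [h𝔔]; exact Ideal.comap_isPrime _ _
  have hover𝔔 : 𝔔.comap (algebraMap A B) = P := by
    rw [h𝔔, Ideal.comap_comap, hcomm, hover]
  have hk : Θ - algebraMap A B ζ ^ (i + k) * algebraMap A B x ∈ 𝔔 := by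
    rw [h𝔔]; exact mem_comap_pow ζ x Θ s hs 𝔓 i k hi
  have hl : Θ - algebraMap A B ζ ^ (i + l) * algebraMap A B x ∈ 𝔔 := by
    rw [h𝔔, hkl]; exact mem_comap_pow ζ x Θ s hs 𝔓 i l hi
  have hdiff : (algebraMap A B ζ ^ (i + k) - algebraMap A B ζ ^ (i + l)) * algebraMap A B x ∈ 𝔔 := by
    have := 𝔔.sub_mem hl hk
    have e : (Θ - algebraMap A B ζ ^ (i + l) * algebraMap A B x) -
        (Θ - algebraMap A B ζ ^ (i + k) * algebraMap A B x) =
        (algebraMap A B ζ ^ (i + k) - algebraMap A B ζ ^ (i + l)) * algebraMap A B x := by ring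
    rwa [e] at this
  have hxnot : algebraMap A B x ∉ 𝔔 := by
    intro hxm
    have hxP : x ∈ P := by rw [← hover𝔔]; exact hxm
    have hγP : γ ∈ P := by
      have := P.add_mem hx (P.pow_mem_of_mem hxP p hp.out.pos)
      simpa using this
    exact hγ hγP
  have hpow : algebraMap A B ζ ^ (i + k) - algebraMap A B ζ ^ (i + l) ∈ 𝔔 :=
    (Ideal.IsPrime.mem_or_mem inferInstance hdiff).resolve_right hxnot
  have hp𝔔 : (p : B) ∉ 𝔔 := by
    intro hmem
    apply hpP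
    rw [← hover𝔔, Ideal.mem_comap]
    simpa using hmem
  have heq := pow_eq_pow_of_sub_mem hζ 𝔔 hp𝔔 hpow
  have hord : orderOf (algebraMap A B ζ) = p := hζ.eq_orderOf.symm
  have hmod : (i + k) % p = (i + l) % p :=
    hζ.pow_inj (Nat.mod_lt _ hp.out.pos) (Nat.mod_lt _ hp.out.pos) (by
      have h1 := pow_mod_orderOf (algebraMap A B ζ) (i + k)
      have h2 := pow_mod_orderOf (algebraMap A B ζ) (i + l)
      rw [hord] at h1 h2
      rw [h1, h2, heq])
  have hmod' : (i + k : ℕ) ≡ i + l [MOD p] := hmod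
  have := Nat.ModEq.add_left_cancel' i hmod'
  have hkl' : (k : ℕ) = l := by
    have h1 := Nat.mod_eq_of_lt k.2
    have h2 := Nat.mod_eq_of_lt l.2
    unfold Nat.ModEq at this
    omega
  exact Fin.ext hkl'

end Core

section Count

variable (K M : Type*) [Field K] [NumberField K] [Field M] [NumberField M] [Algebra K M]

/-- If a prime `P` of `𝓞 K` has `[M : K]` distinct primes of `𝓞 M` above it, then each of them has
the same absolute norm as `P` (universe-polymorphic copy of helper54's lemma). -/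
theorem absNorm_eq_of_injective' (n : ℕ) (hn : Module.finrank K M = n) (P : Ideal (𝓞 K))
    [hP : P.IsPrime] (Q : Fin n → Ideal (𝓞 M)) (hQ : Function.Injective Q)
    (hprime : ∀ k, (Q k).IsPrime) (hover : ∀ k, (Q k).comap (algebraMap (𝓞 K) (𝓞 M)) = P)
    (k : Fin n) : Ideal.absNorm (Q k) = Ideal.absNorm P := by
  classical
  subst hn
  haveI : Fintype (P.primesOver (𝓞 M)) := (Algebra.QuasiFinite.finite_primesOver P).fintype
  have hsum := Ideal.sum_ramification_inertia_eq_finrank P (𝓞 M)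
  rw [← IsFractionRing.finrank_eq (𝓞 K) K (𝓞 M) M] at hsum
  have hlies : ∀ k, (Q k).LiesOver P := fun k => ⟨(hover k).symm⟩
  let q : Fin (Module.finrank K M) → P.primesOver (𝓞 M) := fun k => ⟨Q k, hprime k, hlies k⟩
  have hq : Function.Injective q := by
    intro a b hab
    exact hQ (congrArg Subtype.val hab)
  have hpos : ∀ r : P.primesOver (𝓞 M),
      1 ≤ r.1.ramificationIdx (𝓞 K) * r.1.inertiaDeg (𝓞 K) := by
    intro r
    haveI := r.2.1
    exact Nat.one_le_iff_ne_zero.2 (Nat.mul_ne_zero (Ideal.ramificationIdx_pos r.1 (𝓞 K)).ne'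
      (Ideal.inertiaDeg_pos r.1 (𝓞 K)).ne')
  have hle : ∑ j : Fin (Module.finrank K M),
      (q j).1.ramificationIdx (𝓞 K) * (q j).1.inertiaDeg (𝓞 K) ≤ Module.finrank K M := by
    have h1 : ∑ j : Fin (Module.finrank K M),
        (q j).1.ramificationIdx (𝓞 K) * (q j).1.inertiaDeg (𝓞 K) =
        ∑ r ∈ Finset.univ.image q, r.1.ramificationIdx (𝓞 K) * r.1.inertiaDeg (𝓞 K) :=
      (Finset.sum_image (f := fun r : P.primesOver (𝓞 M) =>
        r.1.ramificationIdx (𝓞 K) * r.1.inertiaDeg (𝓞 K)) (s := Finset.univ) (g := q)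
        (fun a _ b _ hab => hq hab)).symm
    exact h1.le.trans ((Finset.sum_le_sum_of_subset (Finset.subset_univ _)).trans hsum.le)
  have hk1 : (q k).1.ramificationIdx (𝓞 K) * (q k).1.inertiaDeg (𝓞 K) ≤ 1 := by
    by_contra hcon
    have hcon' := not_le.1 hcon
    have : Module.finrank K M < ∑ j : Fin (Module.finrank K M),
        (q j).1.ramificationIdx (𝓞 K) * (q j).1.inertiaDeg (𝓞 K) := by
      calc Module.finrank K M = ∑ _j : Fin (Module.finrank K M), 1 := by simp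
        _ < ∑ j : Fin (Module.finrank K M),
            (q j).1.ramificationIdx (𝓞 K) * (q j).1.inertiaDeg (𝓞 K) :=
          Finset.sum_lt_sum (fun j _ => hpos (q j)) ⟨k, Finset.mem_univ _, hcon'⟩
    omega
  haveI := hprime k
  haveI := hlies k
  have hf : (Q k).inertiaDeg (𝓞 K) = 1 := by
    have h1 := Ideal.inertiaDeg_pos (Q k) (𝓞 K)
    have h2 := Ideal.ramificationIdx_pos (Q k) (𝓞 K)
    have h3 : (Q k).ramificationIdx (𝓞 K) * (Q k).inertiaDeg (𝓞 K) ≤ 1 := hk1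
    nlinarith
  have := Ideal.absNorm_pow_inertiaDeg P (Q k)
  rw [hf, pow_one] at this
  exact this.symm

end Count

section Abstract

variable (p : ℕ) [hp : Fact p.Prime] (K M : Type*) [Field K] [NumberField K] [Field M]
  [NumberField M] [Algebra K M]

/-- Abstract form of the splitting statement (non-unit version). -/
theorem exists_split_of_kummer_of_notMem (hdeg : Module.finrank K M = p) (ζ γ : 𝓞 K)
    (hζ : IsPrimitiveRoot ζ p) (Θ : 𝓞 M)
    (hΘ : Θ ^ p = algebraMap (𝓞 K) (𝓞 M) γ) (s : 𝓞 M ≃ₐ[𝓞 K] 𝓞 M)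
    (hs : s Θ = algebraMap (𝓞 K) (𝓞 M) ζ * Θ)
    (S : Set (HeightOneSpectrum (𝓞 K)))
    (hS : ∀ v ∈ S, ((p : ℕ) : 𝓞 K) ∉ v.asIdeal ∧ γ ∉ v.asIdeal ∧
      ∃ x : 𝓞 K, γ - x ^ p ∈ v.asIdeal) :
    ∃ e : S × Fin p → HeightOneSpectrum (𝓞 M), Function.Injective e ∧
      ∀ x, Ideal.absNorm (e x).asIdeal = Ideal.absNorm x.1.1.asIdeal := by
  classical
  have hinj : Function.Injective (algebraMap (𝓞 K) (𝓞 M)) :=
    FaithfulSMul.algebraMap_injective (𝓞 K) (𝓞 M)
  have hζM : IsPrimitiveRoot (algebraMap (𝓞 K) (𝓞 M) ζ) p := hζ.map_of_injective hinj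
  have hex : ∀ v : S, ∃ 𝔓 : Ideal (𝓞 M), 𝔓.IsPrime ∧
      𝔓.comap (algebraMap (𝓞 K) (𝓞 M)) = v.1.asIdeal := by
    intro v
    haveI := v.1.isPrime
    obtain ⟨⟨𝔓, h1, h2⟩⟩ := (inferInstance : Nonempty (v.1.asIdeal.primesOver (𝓞 M)))
    exact ⟨𝔓, h1, h2.over.symm⟩
  choose 𝔓 h𝔓prime h𝔓over using hex
  choose x hx using fun v : S => (hS v.1 v.2).2.2
  have hcomm : ∀ k : ℕ, (((s ^ k : 𝓞 M ≃ₐ[𝓞 K] 𝓞 M) : 𝓞 M →+* 𝓞 M)).comp
      (algebraMap (𝓞 K) (𝓞 M)) = algebraMap (𝓞 K) (𝓞 M) := by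
    intro k
    ext a
    simp only [RingHom.comp_apply, RingHom.coe_coe]
    exact congrArg _ ((s ^ k).commutes a)
  let Q : S → Fin p → Ideal (𝓞 M) := fun v k =>
    (𝔓 v).comap ((s ^ (k : ℕ) : 𝓞 M ≃ₐ[𝓞 K] 𝓞 M) : 𝓞 M →+* 𝓞 M)
  have hQprime : ∀ v k, (Q v k).IsPrime := fun v k => by
    haveI := h𝔓prime v
    exact Ideal.comap_isPrime _ _
  have hQover : ∀ v k, (Q v k).comap (algebraMap (𝓞 K) (𝓞 M)) = v.1.asIdeal := fun v k => by
    simp only [Q]
    rw [Ideal.comap_comap, hcomm, h𝔓over]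
  have hQne : ∀ v k, Q v k ≠ ⊥ := fun v k h => by
    have := hQover v k
    rw [h, Ideal.comap_bot_of_injective _ hinj] at this
    exact v.1.ne_bot this.symm
  have hQinj : ∀ v, Function.Injective (Q v) := fun v => by
    haveI := h𝔓prime v
    exact comap_pow_injective_of_notMem ζ (x v) γ Θ s hζM hΘ hs v.1.asIdeal (hS v.1 v.2).2.1
      (hS v.1 v.2).1 (hx v) (𝔓 v) (h𝔓over v)
  refine ⟨fun y => ⟨Q y.1 y.2, hQprime _ _, hQne _ _⟩, ?_, ?_⟩
  · rintro ⟨v, k⟩ ⟨v', k'⟩ h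
    have h1 : Q v k = Q v' k' := congrArg HeightOneSpectrum.asIdeal h
    have hv : v = v' := by
      apply Subtype.ext
      apply HeightOneSpectrum.ext
      rw [← hQover v k, ← hQover v' k', h1]
    subst hv
    rw [hQinj v h1]
  · rintro ⟨v, k⟩
    haveI := v.1.isPrime
    exact absNorm_eq_of_injective' K M p hdeg v.1.asIdeal (Q v) (hQinj v) (hQprime v)
      (hQover v) k

end Abstract

section Final

open scoped KummerExtension

universe u

variable (p : ℕ) [hp : Fact p.Prime] (K : Type u) [Field K] [NumberField K]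

/-- **Splitting of primes in `M = K(γ^(1/p))`** for `γ ∈ 𝓞 K` which is not a `p`-th power in `K`:
every prime `v` of `𝓞 K` with `p, γ ∉ v` and `γ` a `p`-th power modulo `v` has `p` distinct primes
of `M` above it, all of the same absolute norm as `v`. -/
theorem exists_split_field_of_notMem (ζ : K) (hζ : IsPrimitiveRoot ζ p) (γ : 𝓞 K)
    (hnp : ¬ ∃ x : K, x ^ p = (γ : K)) (S : Set (HeightOneSpectrum (𝓞 K)))
    (hS : ∀ v ∈ S, ((p : ℕ) : 𝓞 K) ∉ v.asIdeal ∧ γ ∉ v.asIdeal ∧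
      ∃ x : 𝓞 K, γ - x ^ p ∈ v.asIdeal) :
    ∃ (M : Type u) (_ : Field M) (_ : NumberField M)
      (e : S × Fin p → HeightOneSpectrum (𝓞 M)), Function.Injective e ∧
      ∀ x, Ideal.absNorm (e x).asIdeal = Ideal.absNorm x.1.1.asIdeal := by
  classical
  have hp0 : p ≠ 0 := hp.out.ne_zero
  obtain ⟨a, haγ⟩ : ∃ a : K, algebraMap (𝓞 K) K γ = a := ⟨_, rfl⟩
  have haint : IsIntegral ℤ a := haγ ▸ γ.2
  have ha : ∀ b : K, b ^ p ≠ a := by
    intro b hb
    exact hnp ⟨b, by rw [hb, ← haγ]⟩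
  have hirr : Irreducible (X ^ p - C a) := X_pow_sub_C_irreducible_of_prime hp.out ha
  haveI : Fact (Irreducible (X ^ p - C a)) := ⟨hirr⟩
  have hne : (X ^ p - C a) ≠ 0 := hirr.ne_zero
  haveI : Module.Finite K K[p√a] := (AdjoinRoot.powerBasis hne).finite
  haveI : NumberField K[p√a] := NumberField.of_module_finite K _
  have hdeg : Module.finrank K K[p√a] = p := by
    rw [(AdjoinRoot.powerBasis hne).finrank, AdjoinRoot.powerBasis_dim,
      natDegree_X_pow_sub_C]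
  have hθ : (AdjoinRoot.root (X ^ p - C a)) ^ p = algebraMap K K[p√a] a := by
    have := AdjoinRoot.eval₂_root (X ^ p - C a)
    rw [eval₂_sub, eval₂_pow, eval₂_X, eval₂_C, sub_eq_zero] at this
    exact this
  have hθint : IsIntegral ℤ (AdjoinRoot.root (X ^ p - C a)) := by
    refine IsIntegral.of_pow hp.out.pos ?_
    rw [hθ]
    exact haint.algebraMap
  obtain ⟨Θ, hΘcoe⟩ : ∃ Θ : 𝓞 K[p√a],
      algebraMap (𝓞 K[p√a]) K[p√a] Θ = AdjoinRoot.root (X ^ p - C a) := ⟨⟨_, hθint⟩, rfl⟩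
  have hΘ : Θ ^ p = algebraMap (𝓞 K) (𝓞 K[p√a]) γ := by
    apply FaithfulSMul.algebraMap_injective (𝓞 K[p√a]) K[p√a]
    rw [map_pow, hΘcoe, hθ, ← IsScalarTower.algebraMap_apply,
      IsScalarTower.algebraMap_apply (𝓞 K) K K[p√a], haγ]
  have hζu : ζ ^ p = 1 := hζ.pow_eq_one
  let η : rootsOfUnity p K := ⟨(hζ.isUnit hp0).unit, by
    rw [mem_rootsOfUnity]
    ext
    simpa using hζu⟩
  let σ : K[p√a] ≃ₐ[K] K[p√a] := autAdjoinRootXPowSubC p a η
  have hσ : σ (AdjoinRoot.root (X ^ p - C a)) = ζ • AdjoinRoot.root (X ^ p - C a) := by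
    have := autAdjoinRootXPowSubC_root (n := p) a η
    simpa [σ, η] using this
  obtain ⟨s, hsdef⟩ : ∃ s : 𝓞 K[p√a] ≃ₐ[𝓞 K] 𝓞 K[p√a],
      s = galRestrict (𝓞 K) K K[p√a] (𝓞 K[p√a]) σ := ⟨_, rfl⟩
  have hs : s Θ = algebraMap (𝓞 K) (𝓞 K[p√a]) hζ.toInteger * Θ := by
    apply FaithfulSMul.algebraMap_injective (𝓞 K[p√a]) K[p√a]
    rw [hsdef, algebraMap_galRestrict_apply, hΘcoe, hσ, map_mul, hΘcoe, Algebra.smul_def,
      ← IsScalarTower.algebraMap_apply, IsScalarTower.algebraMap_apply (𝓞 K) K K[p√a]]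
    rfl
  obtain ⟨e, he1, he2⟩ := exists_split_of_kummer_of_notMem p K K[p√a] hdeg hζ.toInteger γ
    hζ.toInteger_isPrimitiveRoot Θ hΘ s hs S hS
  exact ⟨K[p√a], inferInstance, inferInstance, e, he1, he2⟩

end Final

end Fermat.Agent.H25.CFT
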