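import Mathlib
import Fermat.Agent.H25.CFT.Interfaces
import Fermat.Agent.H25.CFT.SplitNormInterface
import Fermat.Agent.H25.CFT.KeyLemma
import Fermat.Agent.H25.CFT.Count

/-!
# P-CFT (helper25): the second inequality, assembled

`Fermat.Agent.H25.CFT.secondInequality`: Chevalley's algebraic proof of the second inequality
`[Kˣ : O_T^× · NT(L,T)] ∣ p` for a cyclic extension `L/K` of odd prime degree `p` with
`ζ_p ∈ K`, from the first inequality and the local leaves.
-/

set_option autoImplicit false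
set_option linter.style.haveILetI false

open IsDedekindDomain NumberField Ideal

namespace Fermat.Agent.H25.CFT

open Fermat.Agent.H43.Cft

universe u v

/-- A Kummer generator of a Galois extension of prime degree. -/
theorem exists_kummer_generator (K : Type u) [Field K] [NumberField K] (L : Type v) [Field L]
    [NumberField L] [Algebra K L] [IsGalois K L] (p : ℕ) (hp : p.Prime)
    (hdeg : Module.finrank K L = p) (ζ : K) (hζ : IsPrimitiveRoot ζ p) :
    ∃ (x : Kˣ) (θ : L), θ ^ p = algebraMap K L (x : K) ∧ x ∉ powSubgroup K p := by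
  have hp0 : p ≠ 0 := hp.ne_zero
  haveI : FiniteDimensional K L :=
    Module.finite_of_finrank_pos (by rw [hdeg]; exact hp.pos)
  haveI : Fact p.Prime := ⟨hp⟩
  have hcard : Nat.card (L ≃ₐ[K] L) = p := by
    rw [IsGalois.card_aut_eq_finrank, hdeg]
  haveI : IsCyclic (L ≃ₐ[K] L) := isCyclic_of_prime_card hcard
  have hK : (primitiveRoots (Module.finrank K L) K).Nonempty := by
    rw [hdeg]
    exact ⟨ζ, (mem_primitiveRoots hp.pos).2 hζ⟩
  obtain ⟨α, ⟨a, ha⟩, hα⟩ := exists_root_adjoin_eq_top_of_isCyclic K L hK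
  rw [hdeg] at ha
  -- `α ∉ K`
  have hαK : ∀ z : K, algebraMap K L z ≠ α := by
    intro z hz
    have h1 : IntermediateField.adjoin K {α} = ⊥ := by
      rw [IntermediateField.adjoin_simple_eq_bot_iff, IntermediateField.mem_bot]
      exact ⟨z, hz⟩
    rw [h1] at hα
    have h2 := IntermediateField.bot_eq_top_iff_finrank_eq_one.1 hα
    rw [hdeg] at h2
    exact hp.one_lt.ne' h2
  have ha0 : a ≠ 0 := by
    rintro rfl
    rw [map_zero] at ha
    have : α = 0 := pow_eq_zero_iff hp0 |>.1 ha.symm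
    exact hαK 0 (by rw [map_zero, this])
  refine ⟨Units.mk0 a ha0, α, ha.symm, ?_⟩
  intro hpow
  obtain ⟨z, hz⟩ := (mem_powSubgroup_iff_val hp0).1 hpow
  rw [Units.val_mk0] at hz
  have hz0 : z ≠ 0 := by
    rintro rfl
    rw [zero_pow hp0] at hz
    exact ha0 hz.symm
  have hzL : algebraMap K L z ≠ 0 := by
    rw [Ne, map_eq_zero]; exact hz0
  have hζL : IsPrimitiveRoot (algebraMap K L ζ) p :=
    hζ.map_of_injective (algebraMap K L).injective
  have h1 : (α / algebraMap K L z) ^ p = 1 := by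
    rw [div_pow, ← ha, ← hz, map_pow, div_self (pow_ne_zero _ hzL)]
  obtain ⟨i, -, hi⟩ := hζL.eq_pow_of_pow_eq_one h1
  refine hαK (ζ ^ i * z) ?_
  rw [map_mul, map_pow, hi, div_mul_cancel₀ _ hzL]

/-- the support of an element of `Kˣ` is finite -/
theorem exists_finset_support' {K : Type*} [Field K] [NumberField K] (x : Kˣ) :
    ∃ T₁ : Finset (HeightOneSpectrum (𝓞 K)), ∀ v ∉ T₁, v.valuation K (x : K) = 1 := by
  classical
  have h1 := HeightOneSpectrum.Support.finite (𝓞 K) (x : K)
  have h2 := HeightOneSpectrum.Support.finite (𝓞 K) ((x⁻¹ : Kˣ) : K)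
  refine ⟨h1.toFinset ∪ h2.toFinset, fun v hv => ?_⟩
  simp only [Finset.mem_union, Set.Finite.mem_toFinset, not_or] at hv
  obtain ⟨hv1, hv2⟩ := hv
  have h3 : v.valuation K (x : K) ≤ 1 := not_lt.mp hv1
  have h4 : v.valuation K ((x⁻¹ : Kˣ) : K) ≤ 1 := not_lt.mp hv2
  rw [Units.val_inv_eq_inv_val, map_inv₀] at h4
  have hx0 : v.valuation K (x : K) ≠ 0 := (Valuation.ne_zero_iff _).mpr x.ne_zero
  have h5 : 1 ≤ v.valuation K (x : K) := by
    rwa [inv_le_one₀ (zero_lt_iff.mpr hx0)] at h4
  exact le_antisymm h3 h5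

/-- **The second inequality** (Chevalley), from the first inequality and the local leaves. -/
theorem secondInequality (h1 : FirstInequalityStatement.{u, u})
    (hsn : SplitLocNormStatement.{u, u}) (htame : TameNewtonStatement.{u})
    (hsplits₁ : KummerSplitsStatement.{u, u}) (hsplits₂ : KummerSplitsStatement.{u, v})
    (hidx : LocalPowIndexStatement.{u}) (hunram : KummerUnramifiedStatement.{u, u})
    (hgen : NormGeneratorStatement.{u, v}) : SecondInequalityStatement.{u, v} := by
  classical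
  intro K _ _ L _ _ _ p T hset hζ' hclL
  obtain ⟨ζ, hζ⟩ := hζ'
  haveI : Fact p.Prime := ⟨hset.prime⟩
  haveI : IsGalois K L := hset.galois
  have hp : p.Prime := hset.prime
  have hp0 : p ≠ 0 := hp.ne_zero
  have hdeg := hset.degree
  have hTp := hset.above_p
  obtain ⟨x, θ, hθ, hx⟩ := exists_kummer_generator K L p hp hdeg ζ hζ
  obtain ⟨T₁, hT₁⟩ := exists_finset_support' x
  set N : ℕ := (T ∪ T₁).sup (fun v => absNorm v.asIdeal) with hN
  have hTN : ∀ v ∈ T, absNorm v.asIdeal ≤ N := fun v hv =>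
    Finset.le_sup (f := fun v : HeightOneSpectrum (𝓞 K) => absNorm v.asIdeal)
      (Finset.mem_union_left _ hv)
  have haN : ∀ w : HeightOneSpectrum (𝓞 K), N < absNorm w.asIdeal →
      w.valuation K (x : K) = 1 := by
    intro w hw
    refine hT₁ w (fun hwT => ?_)
    have := Finset.le_sup (f := fun v : HeightOneSpectrum (𝓞 K) => absNorm v.asIdeal)
      (Finset.mem_union_right T hwT)
    omega
  set r : ℕ := Fintype.card (InfinitePlace K) with hr
  have hrpos : 0 < r := Fintype.card_pos
  have hrel := relIndex_powSubgroup_sUnits hp0 hζ T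
  have hk : p ^ ((r + T.card - 1) + 1) ≤ (powSubgroup K p).relIndex (SUnits K T) := by
    rw [hrel, Nat.sub_add_cancel (by omega)]
  obtain ⟨W, hWcard, hWnorm, hxW, -, hsurj⟩ :=
    exists_aux_set p K ζ hζ T x N hTN haN (r + T.card - 1) hk
  have hWT : ∀ w ∈ W, w ∉ T := by
    intro w hw hwT
    have h2 := hTN w hwT
    have h3 := (hWnorm w hw).1
    omega
  have hdisj : Disjoint T W := by
    rw [Finset.disjoint_left]
    intro v hvT hvW
    exact hWT v hvW hvT
  set Ts : Finset (HeightOneSpectrum (𝓞 K)) := T ∪ W with hTsdef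
  have hTs : ∀ v, v ∈ Ts ↔ v ∈ T ∨ v ∈ W := fun v => Finset.mem_union
  have hTscard : Ts.card = T.card + W.card := Finset.card_union_of_disjoint hdisj
  have hkey : ∀ y : Kˣ, y ∈ SUnits K Ts → y ∈ PT K p T → y ∈ powSubgroup K p :=
    fun y hy1 hy2 => key_lemma h1 hsn htame hsplits₁ hunram K p hset.odd ζ hζ T W hTp hset.cl
      hWT hsurj Ts hTs y hy1 hy2
  have hcount : (SUnits K Ts ⊔ PT K p T).index ∣ p := by
    refine count_index hidx K p ζ hζ T Ts hTp ?_ hkey
    rw [hTscard, hWcard]
    omega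
  -- the primes of `W` split in `L`
  have hvp : ∀ v : HeightOneSpectrum (𝓞 K), v ∉ T → v.valuation K ((p : ℕ) : K) = 1 := by
    intro v hv
    have h2 : ((p : ℕ) : 𝓞 K) ∉ v.asIdeal := fun h => hv (hTp v h)
    have h3 := (v.valuation_eq_one_iff_notMem (K := K) (r := ((p : ℕ) : 𝓞 K))).2 h2
    simpa using h3
  have hns : ∀ w ∈ W, ¬ Nonsplit K L w := by
    intro w hw
    obtain ⟨hx1, hx2⟩ := (mem_resSub.1 hxW) w hw
    exact hsplits₂ K L p hp hdeg ζ hζ x θ hθ hx w (htame K p hp w (hvp w (hWT w hw)) x hx1 hx2)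
  have hnormNT : normSubgroup K L ≤ NT K L T :=
    le_iInf fun v => le_iInf fun _ => le_iInf fun _ => le_sup_left
  have hle : SUnits K Ts ⊔ PT K p T ≤ SUnits K T ⊔ NT K L T := by
    refine sup_le ?_ ?_
    · intro y hy
      obtain ⟨z, hzN, hz1, hz2⟩ := exists_mul_unit_at_of_gen (T := T) (normSubgroup K L) W
        (fun w hw => hgen K L p T hset hclL w (hWT w hw) (hns w hw)) hWT y
      have hyz : y * z ∈ SUnits K T := by
        rw [Fermat.Agent.H25.CFT.mem_sUnits_iff]
        intro v hv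
        by_cases hvW : v ∈ W
        · exact hz2 v hvW
        · have hvTs : v ∉ Ts := fun h => ((hTs v).1 h).elim hv hvW
          rw [Units.val_mul, map_mul, (Fermat.Agent.H25.CFT.mem_sUnits_iff.1 hy) v hvTs,
            hz1 v hv hvW, one_mul]
      have e : y = (y * z) * z⁻¹ := by rw [mul_inv_cancel_right]
      rw [e]
      exact Subgroup.mul_mem_sup hyz (hnormNT (Subgroup.inv_mem _ hzN))
    · refine le_trans ?_ le_sup_right
      intro y hy
      rw [mem_NT_iff]
      intro v hv
      exact locPow_le_locNorm hdeg v (mem_PT_iff.1 hy v hv)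
  exact (Subgroup.index_dvd_of_le hle).trans hcount

end Fermat.Agent.H25.CFT
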