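import Fermat.Agent.H25.CFT.SecondInequality
import Fermat.Agent.H4.CFT.TameNewton
import Fermat.Agent.H65.Cft.KummerSplits
import Fermat.Agent.H86.LocIdxMain
import Fermat.Agent.H64.KumUnram
import Fermat.Agent.H90.Cft.NormGen
import Fermat.Agent.H7.Cft.SplitNorm
import Fermat.Agent.H43.Cft.FirstIneqFinal

/-!
# P-CFT (helper25): the second inequality, with all the 2I leaves discharged

The only remaining input is the first inequality at universe `{u, u}`, i.e. (helper43) the local
norm index in the weak form `LocalNormIndexGeStatement`.
-/

namespace Fermat.Agent.H25.CFT

open Fermat.Agent.H43.Cft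

universe u v

/-- **The second inequality** from the first inequality. -/
theorem secondInequality_of_first (h1 : FirstInequalityStatement.{u, u}) :
    SecondInequalityStatement.{u, v} :=
  secondInequality h1 Fermat.Agent.H7.Cft.splitLocNorm Fermat.Agent.H4.CFT.tameNewton
    Fermat.Agent.H65.kummerSplits Fermat.Agent.H65.kummerSplits
    Fermat.Agent.H86.LocIdx.localPowIndex Fermat.Agent.H64.kummerUnramified
    Fermat.Agent.H90.NormGen.normGenerator

/-- **The second inequality** from the local norm index theorem (weak form). -/
theorem secondInequality_of_localGe (hloc : LocalNormIndexGeStatement.{u, u}) :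
    SecondInequalityStatement.{u, v} :=
  secondInequality_of_first (firstInequality_of_localGe hloc)

end Fermat.Agent.H25.CFT
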